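/-
S59 project, cell [STRICT-p], leaf [NEAR-Frob] (helper10; prefix `m59nf_`), file 1: SERIES LEVEL.

`O` a local domain with fraction field `K`, residue field `k`; `B = gq_bddSubring O K ⊆ K((q))` the
Gauss-bounded quotients, `red = gq_res O K : B → k((q))`.

* `m59nf_sigma_bdd` : a coefficient endomorphism `σ` of `K` preserving `O` and inducing `τ` on `k`
  preserves `B` and `red (σ x) = τ (red x)` (coefficientwise);
* `m59nf_frob_bdd`  : the instance `K = ℚ̄`, `O = A`, `σ` a Frobenius element at `A`, `τ x = x ^ p`;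
* `m59nf_core`      : the two-norm computation: from `red Nf = red f · Φ (red w)`,
  `red Nw = red w · Φ (red f)`, `Nf = c g ^ m`, `Nw = c' g' ^ m` the two products
  `σ σ f · g ^ m · c` and `f · (σ g') ^ m · σ c'` have the same reduction;
* `m59nf_quot_sub_one` : `X, Y ∈ B`, `Y⁻¹ ∈ B`, `red X = red Y` ⟹ `X / Y - 1 ∈ B` with reduction `0`.
-/
import Mathlib
import Fermat.Agent.JT3.Bridge.GaussVal
import Fermat.Agent.JT3.ES.GaloisRed
import Fermat.Agent.S44.PsiEig.Inv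

set_option autoImplicit false
set_option linter.unusedSectionVars false

noncomputable section

namespace Fermat.Agent.M59

open ModularCurve IsLocalRing Fermat.Agent.JT3 Fermat.Agent.S44

local notation "Qb" => AlgebraicClosure ℚ

section Abs

variable {O : Type*} [CommRing O] [IsDomain O] [IsLocalRing O]
variable {K : Type*} [Field K] [Algebra O K] [IsFractionRing O K]

/-- a coefficient endomorphism compatible with `O` and inducing `τ` on the residue field preserves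
Gauss-boundedness and commutes with the Gauss reduction. -/
theorem m59nf_sigma_bdd (σ : K →+* K) (s : O →+* O) (τ : ResidueField O →+* ResidueField O)
    (hs : ∀ a, algebraMap O K (s a) = σ (algebraMap O K a))
    (hres : ∀ a, residue O (s a) = τ (residue O a)) (x : LaurentSeries K)
    (hx : gq_IsBdd O K x) :
    ∃ h : gq_IsBdd O K (coeffMap σ x),
      gq_res O K ⟨coeffMap σ x, h⟩ = coeffMap τ (gq_res O K ⟨x, hx⟩) := by
  obtain ⟨z1, z2, hz2, hz⟩ := hx
  have hσeq : coeffMap σ x * coeffMap (algebraMap O K) (coeffMap s z2) =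
      coeffMap (algebraMap O K) (coeffMap s z1) := by
    rw [s44pe_iota_s σ s hs, s44pe_iota_s σ s hs, ← map_mul, hz]
  have hred : ∀ z : LaurentSeries O,
      coeffMap (residue O) (coeffMap s z) = coeffMap τ (coeffMap (residue O) z) := by
    intro z
    rw [coeffMap_coeffMap, coeffMap_coeffMap]
    exact coeffMap_congr (RingHom.ext fun a => hres a) z
  have hw2 : coeffMap (residue O) (coeffMap s z2) ≠ 0 := by
    rw [hred, Ne, map_eq_zero]
    exact hz2
  have hb : gq_IsBdd O K (coeffMap σ x) := ⟨_, _, hw2, hσeq⟩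
  refine ⟨hb, ?_⟩
  rw [gq_res_eq ⟨coeffMap σ x, hb⟩ hw2 hσeq, gq_res_eq ⟨x, _⟩ hz2 hz, hred, hred, map_div₀]

/-- congruence for the reduction of a bounded series. -/
theorem m59nf_res_congr {x y : LaurentSeries K} (h : x = y) (hx : gq_IsBdd O K x)
    (hy : gq_IsBdd O K y) : gq_res O K ⟨x, hx⟩ = gq_res O K ⟨y, hy⟩ := by
  subst h
  rfl

/-- `X, Y` bounded, `Y⁻¹` bounded, same reduction: `X / Y - 1` is bounded with reduction `0`. -/
theorem m59nf_quot_sub_one {X Y : LaurentSeries K} (hX : gq_IsBdd O K X) (hY : gq_IsBdd O K Y)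
    (hYi : gq_IsBdd O K Y⁻¹) (hY0 : Y ≠ 0)
    (h : gq_res O K ⟨X, hX⟩ = gq_res O K ⟨Y, hY⟩) :
    ∃ hE : gq_IsBdd O K (X / Y - 1), gq_res O K ⟨X / Y - 1, hE⟩ = 0 := by
  have hXY : gq_IsBdd O K (X - Y) := (gq_bddSubring O K).sub_mem hX hY
  have hE : gq_IsBdd O K ((X - Y) * Y⁻¹) := (gq_bddSubring O K).mul_mem hXY hYi
  have e : X / Y - 1 = (X - Y) * Y⁻¹ := by
    field_simp
  rw [e]
  refine ⟨hE, ?_⟩
  have e2 : (⟨(X - Y) * Y⁻¹, hE⟩ : ↥(gq_bddSubring O K)) =
      (⟨X, hX⟩ - ⟨Y, hY⟩) * ⟨Y⁻¹, hYi⟩ := rfl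
  rw [e2, map_mul, map_sub, h, sub_self, zero_mul]

/-- **the two-norm computation.**  `rd` the reduction, `Φ` the endomorphism of `k((q))` induced by
`σ`; `Nf = c g ^ m`, `Nw = c' g' ^ m`, `red Nf = red f · Φ (red w)`, `red Nw = red w · Φ (red f)`. -/
theorem m59nf_core (σ : LaurentSeries K →+* LaurentSeries K)
    (Φ : LaurentSeries (ResidueField O) →+* LaurentSeries (ResidueField O))
    (hσ : ∀ (x : LaurentSeries K) (hx : gq_IsBdd O K x), ∃ h : gq_IsBdd O K (σ x),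
      gq_res O K ⟨σ x, h⟩ = Φ (gq_res O K ⟨x, hx⟩))
    {f w c g c' g' : LaurentSeries K} (m : ℕ)
    (hf : gq_IsBdd O K f) (hw : gq_IsBdd O K w) (hc : gq_IsBdd O K c) (hg : gq_IsBdd O K g)
    (hc' : gq_IsBdd O K c') (hg' : gq_IsBdd O K g')
    (hNf : gq_res O K ⟨c * g ^ m, (gq_bddSubring O K).mul_mem hc ((gq_bddSubring O K).pow_mem hg m)⟩
      = gq_res O K ⟨f, hf⟩ * Φ (gq_res O K ⟨w, hw⟩))
    (hNw : gq_res O K ⟨c' * g' ^ m,
        (gq_bddSubring O K).mul_mem hc' ((gq_bddSubring O K).pow_mem hg' m)⟩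
      = gq_res O K ⟨w, hw⟩ * Φ (gq_res O K ⟨f, hf⟩)) :
    ∃ (hX : gq_IsBdd O K (σ (σ f) * g ^ m * c)) (hY : gq_IsBdd O K (f * σ g' ^ m * σ c')),
      gq_res O K ⟨_, hX⟩ = gq_res O K ⟨_, hY⟩ := by
  obtain ⟨hσf, eσf⟩ := hσ f hf
  obtain ⟨hσσf, eσσf⟩ := hσ (σ f) hσf
  obtain ⟨hσg', eσg'⟩ := hσ g' hg'
  obtain ⟨hσc', eσc'⟩ := hσ c' hc'
  obtain ⟨hσN, eσN⟩ := hσ (c' * g' ^ m)
    ((gq_bddSubring O K).mul_mem hc' ((gq_bddSubring O K).pow_mem hg' m))
  have hX : gq_IsBdd O K (σ (σ f) * g ^ m * c) :=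
    (gq_bddSubring O K).mul_mem ((gq_bddSubring O K).mul_mem hσσf
      ((gq_bddSubring O K).pow_mem hg m)) hc
  have hY : gq_IsBdd O K (f * σ g' ^ m * σ c') :=
    (gq_bddSubring O K).mul_mem ((gq_bddSubring O K).mul_mem hf
      ((gq_bddSubring O K).pow_mem hσg' m)) hσc'
  refine ⟨hX, hY, ?_⟩
  have eX : (⟨σ (σ f) * g ^ m * c, hX⟩ : ↥(gq_bddSubring O K)) =
      ⟨σ (σ f), hσσf⟩ * ⟨c * g ^ m,
        (gq_bddSubring O K).mul_mem hc ((gq_bddSubring O K).pow_mem hg m)⟩ :=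
    Subtype.ext (by
      show σ (σ f) * g ^ m * c = σ (σ f) * (c * g ^ m)
      ring)
  have eY : (⟨f * σ g' ^ m * σ c', hY⟩ : ↥(gq_bddSubring O K)) =
      ⟨f, hf⟩ * ⟨σ (c' * g' ^ m), hσN⟩ :=
    Subtype.ext (by
      show f * σ g' ^ m * σ c' = f * σ (c' * g' ^ m)
      rw [map_mul, map_pow]
      ring)
  rw [eX, eY, map_mul, map_mul, hNf, eσσf, eσf, eσN, hNw, map_mul]
  ring

end Abs

/-! ### a Frobenius element at `A` -/

section Frob

variable (A : ValuationSubring Qb) {p : ℕ} (σ : Qb ≃ₐ[ℚ] Qb) (hσ : A.IsFrobeniusAt σ p)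

/-- the endomorphism of the residue field of `A` induced by a Frobenius element. -/
def m59nf_tau : ResidueField ↥A →+* ResidueField ↥A :=
  ((egr_phi (A := A) ⟨σ, hσ.mem_decompositionSubgroup⟩ :
    ResidueField ↥A ≃+* ResidueField ↥A) : ResidueField ↥A →+* ResidueField ↥A)

theorem m59nf_tau_apply (x : ResidueField ↥A) : m59nf_tau A σ hσ x = x ^ p :=
  egr_phi_frob σ hσ x

/-- **a Frobenius element acts on Gauss reductions through the coefficientwise `p`-power map.** -/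
theorem m59nf_frob_bdd (x : LaurentSeries Qb) (hx : gq_IsBdd ↥A Qb x) :
    ∃ h : gq_IsBdd ↥A Qb (coeffMap (σ : Qb →+* Qb) x),
      gq_res ↥A Qb ⟨coeffMap (σ : Qb →+* Qb) x, h⟩ =
        coeffMap (m59nf_tau A σ hσ) (gq_res ↥A Qb ⟨x, hx⟩) :=
  m59nf_sigma_bdd (σ : Qb →+* Qb)
    (MulSemiringAction.toRingHom (A.decompositionSubgroup ℚ) ↥A
      ⟨σ, hσ.mem_decompositionSubgroup⟩)
    (m59nf_tau A σ hσ) (fun _ => rfl) (fun _ => rfl) x hx

end Frob

end Fermat.Agent.M59
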