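/-
S59 project, cell [STRICT-p], leaf [NEAR-Frob] (helper10; prefix `m59nf_`), file 2: THE TWO-VALUATIONS
NORM FORMULA AT THE `ℚ̄`-LEVEL GAUSS RING.

`A` a place of `ℚ̄` over `p`, `p ∤ M`, `F ∈ F̄_{M p}` with `F` and `W̄ F` Gauss-bounded over `A`:
`N_α F` is Gauss-bounded and `red (N_α F) = red F · Fr (red (W̄ F))` (`Fr` = coefficientwise `p`-power).
By descent to a number field `L1` (`s44b_exists_nf`), where `A ∩ L1` is a discrete valuation ring and
main's `rdn_gf_norm_res` applies; base change of norms `s35d_norm_bc_alpha`, of reductions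
`ssm_gb_res`.
-/
import Mathlib
import Fermat.Agent.S44.DQbar.Main
import Fermat.Agent.M59.Strict.NFSer

set_option autoImplicit false
set_option linter.unusedSectionVars false
set_option linter.unusedVariables false
set_option linter.style.haveILetI false
set_option maxHeartbeats 1000000
set_option synthInstance.maxHeartbeats 400000

noncomputable section

namespace Fermat.Agent.M59

open ModularCurve AlgebraicCurve IntermediateField IsLocalRing
open Fermat.Agent.JT3 Fermat.Agent.S24 Fermat.Agent.SS Fermat.Agent.S35 Fermat.Agent.S44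

local notation "Qb" => AlgebraicClosure ℚ

section

variable (M p : ℕ) [NeZero M] [NeZero p] (hp : p.Prime) (hpM : ¬ p ∣ M)
  (A : ValuationSubring Qb) (hA : A.LiesOverPrime p)

include hA in
/-- **the two-valuations norm formula over `ℚ̄`.** -/
theorem m59nf_norm_res (τ : ResidueField ↥A →+* ResidueField ↥A) (hτ : ∀ x, τ x = x ^ p)
    (F : Fbar (M * p)) (h1 : gq_IsBdd ↥A Qb (F : LaurentSeries Qb))
    (h2 : gq_IsBdd ↥A Qb ((ssm_al_Wbar M p hp hpM F : Fbar (M * p)) : LaurentSeries Qb)) :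
    ∃ hN : gq_IsBdd ↥A Qb
        ((s35pe_normAlong (heckeAlphaBar Qb M p) F : Fbar M) : LaurentSeries Qb),
      gq_res ↥A Qb ⟨_, hN⟩ =
        gq_res ↥A Qb ⟨_, h1⟩ * coeffMap τ (gq_res ↥A Qb ⟨_, h2⟩) := by
  classical
  haveI hpF : Fact p.Prime := ⟨hp⟩
  have hp0 : p ≠ 0 := hp.ne_zero
  obtain ⟨L1, hfd, -, -, hS⟩ := s44b_exists_nf (M * p) {F} ∅
  obtain ⟨f1, hf1⟩ := hS F (by simp)
  haveI : FiniteDimensional ℚ ↥L1 := hfd
  haveI : NumberField ↥L1 := { to_charZero := inferInstance, to_finiteDimensional := hfd }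
  haveI : IsDiscreteValuationRing ↥(A.comap (algebraMap ↥L1 Qb)) :=
    dsc_isDVR_comap_numberField A p hA hp0 ↥L1
  obtain ⟨π, hπ⟩ := IsDiscreteValuationRing.exists_irreducible ↥(A.comap (algebraMap ↥L1 Qb))
  have hmem := lg_natCast_mem_maximalIdeal A hA ↥L1
  haveI : CharP (ResidueField ↥(A.comap (algebraMap ↥L1 Qb))) p := ss_nfl_charP_residue hmem
  have hW : ssm_al_iotaF ↥L1 (M * p) (rdn_gf_W ↥L1 M p hpM f1) =
      ssm_al_Wbar M p hp hpM F := by
    rw [rdn_gf_W_apply, ssm_al_W_spec, hf1]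
  have b1 : gq_IsBdd ↥(A.comap (algebraMap ↥L1 Qb)) ↥L1 (f1 : LaurentSeries ↥L1) :=
    (s44b_int2_iotaF_iff (M * p) A L1 hA hp0 f1).1 (by rw [hf1]; exact h1)
  have b2 : gq_IsBdd ↥(A.comap (algebraMap ↥L1 Qb)) ↥L1
      ((rdn_gf_W ↥L1 M p hpM f1 : ↥(lg_F ↥L1 (M * p))) : LaurentSeries ↥L1) :=
    (s44b_int2_iotaF_iff (M * p) A L1 hA hp0 _).1 (by rw [hW]; exact h2)
  obtain ⟨⟨hN, eN⟩, -⟩ := rdn_gf_norm_res (A.comap (algebraMap ↥L1 Qb)) hπ M p hpM f1 b1 b2
  -- series identities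
  have cF : (F : LaurentSeries Qb) =
      coeffMap (algebraMap ↥L1 Qb) (f1 : LaurentSeries ↥L1) := by
    rw [← hf1, ssm_al_coe_iotaF]
  have cW : ((ssm_al_Wbar M p hp hpM F : Fbar (M * p)) : LaurentSeries Qb) =
      coeffMap (algebraMap ↥L1 Qb)
        ((rdn_gf_W ↥L1 M p hpM f1 : ↥(lg_F ↥L1 (M * p))) : LaurentSeries ↥L1) := by
    rw [← hW, ssm_al_coe_iotaF]
  have cN : ((s35pe_normAlong (heckeAlphaBar Qb M p) F : Fbar M) : LaurentSeries Qb) =
      coeffMap (algebraMap ↥L1 Qb)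
        (((letI := ssm_gi_algebra (ssm_al_F_le ↥L1 M p)
           Algebra.norm ↥(lg_F ↥L1 M) f1) : ↥(lg_F ↥L1 M)) : LaurentSeries ↥L1) := by
    have hFbc : F = dsc_bcHom ↥L1 Qb (modularFunctionFieldFull (M * p))
        (s44dq_toFL ↥L1 (M * p) f1) := by
      apply Subtype.ext
      rw [cF, dsc_bcHom_coe, s44dq_coe_toFL]
      rfl
    have hbc := s35d_norm_bc_alpha M p hp hpM ↥L1 (s44dq_toFL ↥L1 (M * p) f1)
    rw [← hFbc] at hbc
    rw [hbc, dsc_bcHom_coe, s44dq_coe_norm_eq]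
    rfl
  -- base change of the reductions
  have hres := ssm_gb_res (algebraMap ↥L1 Qb) (A.comap (algebraMap ↥L1 Qb)) A (fun _ => Iff.rfl)
  set κ := ssm_gb_kappa (algebraMap ↥L1 Qb) (A.comap (algebraMap ↥L1 Qb)) A (fun _ => Iff.rfl)
    with hκ
  have hκτ : ∀ y : LaurentSeries (ResidueField ↥(A.comap (algebraMap ↥L1 Qb))),
      coeffMap κ (coeffMap (frobenius (ResidueField ↥(A.comap (algebraMap ↥L1 Qb))) p) y) =
        coeffMap τ (coeffMap κ y) := by
    intro y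
    rw [coeffMap_coeffMap, coeffMap_coeffMap]
    refine coeffMap_congr (RingHom.ext fun a => ?_) y
    rw [RingHom.comp_apply, RingHom.comp_apply, frobenius_def, map_pow, hτ]
  have hNA : gq_IsBdd ↥A Qb
      ((s35pe_normAlong (heckeAlphaBar Qb M p) F : Fbar M) : LaurentSeries Qb) := by
    rw [cN]
    exact ssm_gb_isBdd (algebraMap ↥L1 Qb) (A.comap (algebraMap ↥L1 Qb)) A (fun _ => Iff.rfl) hN
  refine ⟨hNA, ?_⟩
  rw [m59nf_res_congr cN hNA (ssm_gb_isBdd (algebraMap ↥L1 Qb) (A.comap (algebraMap ↥L1 Qb)) A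
      (fun _ => Iff.rfl) hN),
    m59nf_res_congr cF h1 (ssm_gb_isBdd (algebraMap ↥L1 Qb) (A.comap (algebraMap ↥L1 Qb)) A
      (fun _ => Iff.rfl) b1),
    m59nf_res_congr cW h2 (ssm_gb_isBdd (algebraMap ↥L1 Qb) (A.comap (algebraMap ↥L1 Qb)) A
      (fun _ => Iff.rfl) b2)]
  rw [hres ⟨_, hN⟩, hres ⟨_, b1⟩, hres ⟨_, b2⟩, eN, map_mul, hκτ]

end

end Fermat.Agent.M59
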