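/-
S59 project, cell [STRICT-p], leaf [NEAR-Frob] (helper10; prefix `m59nf_`), file 5: THE CORE AT THE
LEVEL OF `F̄_{M p}`.

`f ∈ F̄_{M p}` with `f`, `W̄ f` units of the Gauss ring `Wv`, `N_α f = c g^m`, `N_α (W̄ f) = c' g'^m`
(`g, g' ∈ F̄_M`), `σ` a Frobenius element at `A`:  there are `r ∈ F̄_{M p}ˣ`, `κ ∈ ℚ̄ˣ` with
`(σ σ f / f) / r^m / κ - 1 ∈ 𝔪_{Wv}`  (`r = σ g' / g`, `κ = σ c' / c` after normalising `g, g'`).
-/
import Mathlib
import Fermat.Agent.M59.Strict.NFSer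
import Fermat.Agent.M59.Strict.NFNorm
import Fermat.Agent.S44.PsiEig.Gauss

set_option autoImplicit false
set_option linter.unusedSectionVars false
set_option linter.unusedVariables false
set_option linter.style.haveILetI false
set_option maxHeartbeats 1000000
set_option synthInstance.maxHeartbeats 400000

noncomputable section

namespace Fermat.Agent.M59

open ModularCurve AlgebraicCurve IntermediateField IsLocalRing
open Fermat.Agent.JT3 Fermat.Agent.S24 Fermat.Agent.SS Fermat.Agent.S35 Fermat.Agent.S44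

local notation "Qb" => AlgebraicClosure ℚ

section Crit

variable (A : ValuationSubring Qb) {p : ℕ} (hA : A.LiesOverPrime p) (hp0 : p ≠ 0)

include hA hp0 in
/-- a Gauss-bounded element with reduction `0` is a nonunit of the Gauss ring. -/
theorem m59nf_mem_nonunits_of_res (N : ℕ) [NeZero N] (x : Fbar N)
    (h : gq_IsBdd ↥A Qb (x : LaurentSeries Qb)) (hres : gq_res ↥A Qb ⟨_, h⟩ = 0) :
    x ∈ (s44pg_W A hA hp0 N).nonunits := by
  rw [ValuationSubring.mem_nonunits_iff_or]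
  by_contra hcon
  rw [not_or, not_not] at hcon
  obtain ⟨hy0, hyinv⟩ := hcon
  have h1 : gq_IsBdd ↥A Qb ((x⁻¹ : Fbar N) : LaurentSeries Qb) :=
    (s44pg_mem_iff A hA hp0 N _).1 hyinv
  rw [IntermediateField.coe_inv] at h1
  have hy0' : (x : LaurentSeries Qb) ≠ 0 := by
    intro h0
    apply hy0
    apply Subtype.ext
    exact h0
  exact gq_res_ne_zero_of_inv ⟨_, h⟩ h1 hy0' hres

end Crit

section Core

variable (M p : ℕ) [NeZero M] [NeZero p] (hp : p.Prime) (hpM : ¬ p ∣ M)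
  (A : ValuationSubring Qb) (hA : A.LiesOverPrime p)

theorem m59nf_norm_inv (f : Fbar (M * p)) (hf : f ≠ 0) :
    s35pe_normAlong (heckeAlphaBar Qb M p) f⁻¹ =
      (s35pe_normAlong (heckeAlphaBar Qb M p) f)⁻¹ := by
  apply eq_inv_of_mul_eq_one_right
  rw [← map_mul, mul_inv_cancel₀ hf, map_one]

include hA in
/-- **normalised norm relation**: the `m`-th root and the constant may be taken Gauss units. -/
theorem m59nf_norm_rel (τ : ResidueField ↥A →+* ResidueField ↥A) (hτ : ∀ x, τ x = x ^ p)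
    {m : ℕ} {f : Fbar (M * p)} (hf0 : f ≠ 0)
    (hf1 : f ∈ s44pg_W A hA hp.ne_zero (M * p)) (hf2 : f⁻¹ ∈ s44pg_W A hA hp.ne_zero (M * p))
    (hw1 : ssm_al_Wbar M p hp hpM f ∈ s44pg_W A hA hp.ne_zero (M * p))
    (hw2 : (ssm_al_Wbar M p hp hpM f)⁻¹ ∈ s44pg_W A hA hp.ne_zero (M * p))
    {c : Qb} {g : Fbar M} (hg : g ≠ 0)
    (hN : s35pe_normAlong (heckeAlphaBar Qb M p) f = algebraMap Qb (Fbar M) c * g ^ m) :
    ∃ (c₁ : Qb) (g₁ : Fbar M), c₁ ≠ 0 ∧ g₁ ≠ 0 ∧ c₁ ∈ A ∧ c₁⁻¹ ∈ A ∧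
      g₁ ∈ s44pg_W A hA hp.ne_zero M ∧ g₁⁻¹ ∈ s44pg_W A hA hp.ne_zero M ∧
      s35pe_normAlong (heckeAlphaBar Qb M p) f = algebraMap Qb (Fbar M) c₁ * g₁ ^ m := by
  have hp0 : p ≠ 0 := hp.ne_zero
  have hNf0 : s35pe_normAlong (heckeAlphaBar Qb M p) f ≠ 0 := s44dqn_normAlong_ne_zero M p hf0
  have hc0 : c ≠ 0 := by
    rintro rfl
    rw [map_zero, zero_mul] at hN
    exact hNf0 hN
  obtain ⟨d, hd, hu, hu'⟩ := s44pg_nrm A hA hp0 M hg
  have hcd : algebraMap Qb (Fbar M) d ≠ 0 := by rw [Ne, map_eq_zero]; exact hd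
  have hrel : s35pe_normAlong (heckeAlphaBar Qb M p) f =
      algebraMap Qb (Fbar M) (c / d ^ m) * (algebraMap Qb (Fbar M) d * g) ^ m := by
    rw [hN, map_div₀, map_pow, mul_pow]
    field_simp
  -- boundedness of the norm and of its inverse
  obtain ⟨hNb, -⟩ := m59nf_norm_res M p hp hpM A hA τ hτ f
    ((s44pg_mem_iff A hA hp0 (M * p) f).1 hf1)
    ((s44pg_mem_iff A hA hp0 (M * p) _).1 hw1)
  have hWinv : ssm_al_Wbar M p hp hpM f⁻¹ = (ssm_al_Wbar M p hp hpM f)⁻¹ := map_inv₀ _ _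
  obtain ⟨hNb', -⟩ := m59nf_norm_res M p hp hpM A hA τ hτ f⁻¹
    ((s44pg_mem_iff A hA hp0 (M * p) _).1 hf2)
    ((s44pg_mem_iff A hA hp0 (M * p) _).1 (by rw [hWinv]; exact hw2))
  rw [m59nf_norm_inv M p f hf0] at hNb'
  have hN1 : s35pe_normAlong (heckeAlphaBar Qb M p) f ∈ s44pg_W A hA hp0 M :=
    (s44pg_mem_iff A hA hp0 M _).2 hNb
  have hN2 : (s35pe_normAlong (heckeAlphaBar Qb M p) f)⁻¹ ∈ s44pg_W A hA hp0 M :=
    (s44pg_mem_iff A hA hp0 M _).2 hNb'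
  have hg10 : algebraMap Qb (Fbar M) d * g ≠ 0 := mul_ne_zero hcd hg
  have hc10 : c / d ^ m ≠ 0 := div_ne_zero hc0 (pow_ne_zero _ hd)
  refine ⟨c / d ^ m, algebraMap Qb (Fbar M) d * g, hc10, hg10, ?_, ?_, hu, hu', hrel⟩
  · rw [← s44pg_const A hA hp0 M]
    have e : algebraMap Qb (Fbar M) (c / d ^ m) =
        s35pe_normAlong (heckeAlphaBar Qb M p) f * ((algebraMap Qb (Fbar M) d * g)⁻¹) ^ m := by
      rw [hrel, inv_pow, mul_assoc, mul_inv_cancel₀ (pow_ne_zero _ hg10), mul_one]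
    rw [e]
    exact (s44pg_W A hA hp0 M).mul_mem _ _ hN1 ((s44pg_W A hA hp0 M).pow_mem hu' m)
  · rw [← s44pg_const A hA hp0 M]
    have e : algebraMap Qb (Fbar M) (c / d ^ m)⁻¹ =
        (s35pe_normAlong (heckeAlphaBar Qb M p) f)⁻¹ * (algebraMap Qb (Fbar M) d * g) ^ m := by
      rw [hrel, mul_inv, mul_assoc, inv_mul_cancel₀ (pow_ne_zero _ hg10), mul_one, map_inv₀]
    rw [e]
    exact (s44pg_W A hA hp0 M).mul_mem _ _ hN2 ((s44pg_W A hA hp0 M).pow_mem hu m)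

/-- the coefficientwise action on a constant. -/
theorem m59nf_coeffMap_const (σ : Qb ≃ₐ[ℚ] Qb) (c : Qb) :
    coeffMap (σ : Qb →+* Qb) (algebraMap Qb (LaurentSeries Qb) c) =
      algebraMap Qb (LaurentSeries Qb) (σ c) := by
  rw [gq_algebraMap_eq_single, gq_algebraMap_eq_single, coeffMap_single]
  rfl

include hA in
/-- **the core**: `(σ σ f / f) / r^m / κ` is a principal unit of the Gauss ring. -/
theorem m59nf_coreF (σ : Qb ≃ₐ[ℚ] Qb) (hσ : A.IsFrobeniusAt σ p)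
    {m : ℕ} {f : Fbar (M * p)} (hf0 : f ≠ 0)
    (hf1 : f ∈ s44pg_W A hA hp.ne_zero (M * p)) (hf2 : f⁻¹ ∈ s44pg_W A hA hp.ne_zero (M * p))
    (hw1 : ssm_al_Wbar M p hp hpM f ∈ s44pg_W A hA hp.ne_zero (M * p))
    (hw2 : (ssm_al_Wbar M p hp hpM f)⁻¹ ∈ s44pg_W A hA hp.ne_zero (M * p))
    {c c' : Qb} {g g' : Fbar M} (hg : g ≠ 0) (hg' : g' ≠ 0)
    (hN : s35pe_normAlong (heckeAlphaBar Qb M p) f = algebraMap Qb (Fbar M) c * g ^ m)
    (hN' : s35pe_normAlong (heckeAlphaBar Qb M p) (ssm_al_Wbar M p hp hpM f) =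
      algebraMap Qb (Fbar M) c' * g' ^ m) :
    ∃ r : Fbar (M * p), r ≠ 0 ∧ ∃ κ : Qb, κ ≠ 0 ∧
      (arithmeticGalois (modularFunctionFieldFull (M * p)) σ •
        arithmeticGalois (modularFunctionFieldFull (M * p)) σ • f / f) / r ^ m /
          algebraMap Qb (Fbar (M * p)) κ - 1 ∈ (s44pg_W A hA hp.ne_zero (M * p)).nonunits := by
  have hp0 : p ≠ 0 := hp.ne_zero
  set τ := m59nf_tau A σ hσ with hτdef
  have hτ : ∀ x, τ x = x ^ p := m59nf_tau_apply A σ hσ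
  have hWW : ssm_al_Wbar M p hp hpM (ssm_al_Wbar M p hp hpM f) = f :=
    s44dqn_Wbar_Wbar M p hp hpM f
  have hWf0 : ssm_al_Wbar M p hp hpM f ≠ 0 := by
    rw [Ne, map_eq_zero]; exact hf0
  obtain ⟨c₁, g₁, hc₁0, hg₁0, hc₁A, hc₁A', hg₁W, hg₁W', hN₁⟩ :=
    m59nf_norm_rel M p hp hpM A hA τ hτ hf0 hf1 hf2 hw1 hw2 hg hN
  obtain ⟨c₂, g₂, hc₂0, hg₂0, hc₂A, hc₂A', hg₂W, hg₂W', hN₂⟩ :=
    m59nf_norm_rel M p hp hpM A hA τ hτ hWf0 hw1 hw2 (by rw [hWW]; exact hf1)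
      (by rw [hWW]; exact hf2) hg' hN'
  -- boundedness of the series
  have bf : gq_IsBdd ↥A Qb (f : LaurentSeries Qb) := (s44pg_mem_iff A hA hp0 (M * p) f).1 hf1
  have bw : gq_IsBdd ↥A Qb ((ssm_al_Wbar M p hp hpM f : Fbar (M * p)) : LaurentSeries Qb) :=
    (s44pg_mem_iff A hA hp0 (M * p) _).1 hw1
  have bg : gq_IsBdd ↥A Qb (g₁ : LaurentSeries Qb) := (s44pg_mem_iff A hA hp0 M g₁).1 hg₁W
  have bg' : gq_IsBdd ↥A Qb (g₂ : LaurentSeries Qb) := (s44pg_mem_iff A hA hp0 M g₂).1 hg₂W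
  have bc : gq_IsBdd ↥A Qb (algebraMap Qb (LaurentSeries Qb) c₁) :=
    (s44pg_isBdd_const A c₁).2 hc₁A
  have bc' : gq_IsBdd ↥A Qb (algebraMap Qb (LaurentSeries Qb) c₂) :=
    (s44pg_isBdd_const A c₂).2 hc₂A
  -- the reductions of the norms
  obtain ⟨hNb, eN⟩ := m59nf_norm_res M p hp hpM A hA τ hτ f bf bw
  have bww : gq_IsBdd ↥A Qb ((ssm_al_Wbar M p hp hpM (ssm_al_Wbar M p hp hpM f) :
      Fbar (M * p)) : LaurentSeries Qb) := by rw [hWW]; exact bf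
  obtain ⟨hNb', eN'⟩ := m59nf_norm_res M p hp hpM A hA τ hτ (ssm_al_Wbar M p hp hpM f) bw bww
  have eNs : ((s35pe_normAlong (heckeAlphaBar Qb M p) f : Fbar M) : LaurentSeries Qb) =
      algebraMap Qb (LaurentSeries Qb) c₁ * (g₁ : LaurentSeries Qb) ^ m := by
    rw [hN₁]
    simp only [IntermediateField.coe_mul, IntermediateField.coe_pow,
      IntermediateField.coe_algebraMap_apply]
  have eNs' : ((s35pe_normAlong (heckeAlphaBar Qb M p) (ssm_al_Wbar M p hp hpM f) : Fbar M) :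
      LaurentSeries Qb) = algebraMap Qb (LaurentSeries Qb) c₂ * (g₂ : LaurentSeries Qb) ^ m := by
    rw [hN₂]
    simp only [IntermediateField.coe_mul, IntermediateField.coe_pow,
      IntermediateField.coe_algebraMap_apply]
  have hww : ((ssm_al_Wbar M p hp hpM (ssm_al_Wbar M p hp hpM f) : Fbar (M * p)) :
      LaurentSeries Qb) = (f : LaurentSeries Qb) := by rw [hWW]
  obtain ⟨hX, hY, hXY⟩ := m59nf_core (O := ↥A) (K := Qb) (coeffMap (σ : Qb →+* Qb)) (coeffMap τ)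
    (fun x hx => m59nf_frob_bdd A σ hσ x hx) m bf bw bc bg bc' bg'
    (by rw [← eN]; exact m59nf_res_congr eNs.symm _ _)
    (by rw [m59nf_res_congr hww.symm bf bww, ← eN']; exact m59nf_res_congr eNs'.symm _ _)
  -- nonvanishing
  have fs0 : (f : LaurentSeries Qb) ≠ 0 := fun h => hf0 (Subtype.ext h)
  have gs0 : (g₁ : LaurentSeries Qb) ≠ 0 := fun h => hg₁0 (Subtype.ext h)
  have gs0' : (g₂ : LaurentSeries Qb) ≠ 0 := fun h => hg₂0 (Subtype.ext h)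
  have cs0 : algebraMap Qb (LaurentSeries Qb) c₁ ≠ 0 := (map_ne_zero _).2 hc₁0
  have cs0' : algebraMap Qb (LaurentSeries Qb) c₂ ≠ 0 := (map_ne_zero _).2 hc₂0
  have sgs0' : coeffMap (σ : Qb →+* Qb) (g₂ : LaurentSeries Qb) ≠ 0 := (map_ne_zero _).2 gs0'
  have scs0' : coeffMap (σ : Qb →+* Qb) (algebraMap Qb (LaurentSeries Qb) c₂) ≠ 0 :=
    (map_ne_zero _).2 cs0'
  have hY0 : (f : LaurentSeries Qb) * coeffMap (σ : Qb →+* Qb) (g₂ : LaurentSeries Qb) ^ m *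
      coeffMap (σ : Qb →+* Qb) (algebraMap Qb (LaurentSeries Qb) c₂) ≠ 0 :=
    mul_ne_zero (mul_ne_zero fs0 (pow_ne_zero _ sgs0')) scs0'
  -- the inverse of `Y` is bounded
  have bfi : gq_IsBdd ↥A Qb (f : LaurentSeries Qb)⁻¹ := by
    have := (s44pg_mem_iff A hA hp0 (M * p) _).1 hf2
    rwa [IntermediateField.coe_inv] at this
  have bgi' : gq_IsBdd ↥A Qb (g₂ : LaurentSeries Qb)⁻¹ := by
    have := (s44pg_mem_iff A hA hp0 M _).1 hg₂W'
    rwa [IntermediateField.coe_inv] at this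
  have bci' : gq_IsBdd ↥A Qb (algebraMap Qb (LaurentSeries Qb) c₂)⁻¹ := by
    rw [← map_inv₀]
    exact (s44pg_isBdd_const A c₂⁻¹).2 hc₂A'
  obtain ⟨bsgi', -⟩ := m59nf_frob_bdd A σ hσ _ bgi'
  obtain ⟨bsci', -⟩ := m59nf_frob_bdd A σ hσ _ bci'
  have hYi : gq_IsBdd ↥A Qb ((f : LaurentSeries Qb) *
      coeffMap (σ : Qb →+* Qb) (g₂ : LaurentSeries Qb) ^ m *
      coeffMap (σ : Qb →+* Qb) (algebraMap Qb (LaurentSeries Qb) c₂))⁻¹ := by
    rw [mul_inv, mul_inv, ← inv_pow, ← map_inv₀, ← map_inv₀]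
    exact (gq_bddSubring ↥A Qb).mul_mem ((gq_bddSubring ↥A Qb).mul_mem bfi
      ((gq_bddSubring ↥A Qb).pow_mem bsgi' m)) bsci'
  obtain ⟨hE, hEres⟩ := m59nf_quot_sub_one hX hY hYi hY0 hXY
  -- the elements of `F̄_{M p}`
  have hr0 : arithmeticGalois (modularFunctionFieldFull (M * p)) σ • heckeAlphaBar Qb M p g₂ /
      heckeAlphaBar Qb M p g₁ ≠ 0 := by
    refine div_ne_zero ?_ ?_
    · rw [Ne, smul_eq_zero_iff_eq, map_eq_zero]; exact hg₂0
    · rw [Ne, map_eq_zero]; exact hg₁0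
  have hκ0 : σ c₂ / c₁ ≠ 0 := div_ne_zero ((map_ne_zero _).2 hc₂0) hc₁0
  refine ⟨_, hr0, σ c₂ / c₁, hκ0, ?_⟩
  have ecoe : (((arithmeticGalois (modularFunctionFieldFull (M * p)) σ •
        arithmeticGalois (modularFunctionFieldFull (M * p)) σ • f / f) /
        (arithmeticGalois (modularFunctionFieldFull (M * p)) σ • heckeAlphaBar Qb M p g₂ /
          heckeAlphaBar Qb M p g₁) ^ m /
          algebraMap Qb (Fbar (M * p)) (σ c₂ / c₁) - 1 : Fbar (M * p)) : LaurentSeries Qb) =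
      coeffMap (σ : Qb →+* Qb) (coeffMap (σ : Qb →+* Qb) (f : LaurentSeries Qb)) *
        (g₁ : LaurentSeries Qb) ^ m * algebraMap Qb (LaurentSeries Qb) c₁ /
      ((f : LaurentSeries Qb) * coeffMap (σ : Qb →+* Qb) (g₂ : LaurentSeries Qb) ^ m *
        coeffMap (σ : Qb →+* Qb) (algebraMap Qb (LaurentSeries Qb) c₂)) - 1 := by
    simp only [AddSubgroupClass.coe_sub, IntermediateField.coe_div, IntermediateField.coe_pow,
      IntermediateField.coe_one, IntermediateField.coe_algebraMap_apply,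
      coe_arithmeticGalois_smul, coe_heckeAlphaBar]
    rw [m59nf_coeffMap_const, map_div₀, div_pow]
    have h1 : algebraMap Qb (LaurentSeries Qb) (σ c₂) ≠ 0 :=
      (map_ne_zero _).2 ((map_ne_zero _).2 hc₂0)
    field_simp
  exact m59nf_mem_nonunits_of_res A hA hp0 (M * p) _ (by rw [ecoe]; exact hE)
    (by rw [m59nf_res_congr ecoe _ hE]; exact hEres)

end Core

end Fermat.Agent.M59
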