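/-
S59 project, cell [STRICT-p], leaf [NEAR-Frob] (helper10; prefix `m59nf_`), file 3: SIMULTANEOUS
NORMALISATION AT THE TWO GAUSS VALUATIONS `w_∞`, `w_0 = w_∞ ∘ W̄` of `F̄_{M p}`.

The modular unit `u = Δ(q)/Δ(q^p)` is a unit of the Gauss ring `Wv` and `W̄ u = p¹² u⁻¹`
(`s44hw_unit_W`), so `t := p⁶ u⁻¹` has `t ∈ 𝔪`, `W̄ t = t⁻¹`; `y_k := t^k / (1 + t^k)` has
`W̄ y_k = 1 - y_k` and `C · y_k ∈ 𝔪` for every constant `C` and all large `k` (`ℚ̄` has rank one).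

* `m59nf_approx` : for constants `d₁, d₂ ≠ 0` there is `H` with `H / d₁` and `W̄ H / d₂` principal units;
* `m59nf_normalise` : every `f ≠ 0` has `H ≠ 0` with `f H^m` and `W̄ (f H^m)` units of `Wv` (`m ≠ 0`).
-/
import Mathlib
import Fermat.Agent.S44.HeckeRes.UnitW
import Fermat.Agent.S44.Bridge.Arch
import Fermat.Agent.S33.Geo.NearAbs

set_option autoImplicit false
set_option linter.unusedSectionVars false
set_option linter.unusedVariables false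

noncomputable section

namespace Fermat.Agent.M59

open ModularCurve AlgebraicCurve IsLocalRing
open Fermat.Agent.JT3 Fermat.Agent.SS Fermat.Agent.S35 Fermat.Agent.S44 Fermat.Agent.S33
  Fermat.Agent.S24

local notation "Qb" => AlgebraicClosure ℚ

/-! ### generalities on a valuation subring -/

section Gen

variable {F : Type*} [Field F] (V : ValuationSubring F)

theorem m59nf_nu_mul_mem {a b : F} (ha : a ∈ V.nonunits) (hb : b ∈ V) : a * b ∈ V.nonunits := by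
  rw [ValuationSubring.mem_nonunits_iff, map_mul]
  have h1 := V.mem_nonunits_iff.mp ha
  have h2 := (V.valuation_le_one_iff b).mpr hb
  calc V.valuation a * V.valuation b ≤ V.valuation a * 1 := mul_le_mul_right h2 _
    _ = V.valuation a := mul_one _
    _ < 1 := h1

theorem m59nf_pu_ne_zero {E : F} (hE : E - 1 ∈ V.nonunits) : E ≠ 0 := by
  rintro rfl
  rw [zero_sub, ValuationSubring.mem_nonunits_iff, Valuation.map_neg, map_one] at hE
  exact lt_irrefl _ hE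

theorem m59nf_pu_pow {E : F} (hE : E - 1 ∈ V.nonunits) (m : ℕ) : E ^ m - 1 ∈ V.nonunits := by
  have := s44pe_zpow_sub_one_mem V hE (m : ℤ)
  rwa [zpow_natCast] at this

/-- `1 + x` is a principal unit for `x ∈ 𝔪`. -/
theorem m59nf_one_add_inv_mem {x : F} (hx : x ∈ V.nonunits) : (1 + x)⁻¹ ∈ V := by
  have h1 : (1 + x) - 1 ∈ V.nonunits := by
    rw [add_sub_cancel_left]; exact hx
  exact s33g_pu_mem V (s33g_pu_inv V h1)

end Gen

/-! ### the rank-one property -/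

section Arch

variable (A : ValuationSubring Qb) {p : ℕ} (hp : p.Prime) (hA : A.LiesOverPrime p)

include hp hA in
/-- `C · (p⁶)^k ∈ 𝔪_A` for all large `k`. -/
theorem m59nf_arch (C : Qb) : ∃ k₀ : ℕ, ∀ k, k₀ ≤ k → C * ((p : Qb) ^ 6) ^ k ∈ A.nonunits := by
  have hp6 : ((p : Qb) ^ 6) ∈ A.nonunits := by
    have h1 : (p : Qb) ∈ A.nonunits := hA
    rw [ValuationSubring.mem_nonunits_iff] at h1 ⊢
    rw [map_pow]
    exact pow_lt_one₀ zero_le h1 (by norm_num)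
  have hp60 : ((p : Qb) ^ 6) ≠ 0 := pow_ne_zero _ (by exact_mod_cast hp.ne_zero)
  by_cases hC : C = 0
  · refine ⟨0, fun k _ => ?_⟩
    rw [hC, zero_mul, ValuationSubring.mem_nonunits_iff, map_zero]
    exact zero_lt_one
  · obtain ⟨n₀, hn₀⟩ := s44b_A_arch' A hp hA (inv_ne_zero hC) hp6 hp60
    refine ⟨n₀ + 1, fun k hk => ?_⟩
    obtain ⟨j, rfl⟩ : ∃ j, k = j + 1 := ⟨k - 1, by omega⟩
    have h1 := hn₀ j (by omega)
    have e : C * ((p : Qb) ^ 6) ^ (j + 1) = (p : Qb) ^ 6 * (((p : Qb) ^ 6) ^ j / C⁻¹) := by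
      rw [pow_succ, div_inv_eq_mul]
      ring
    rw [e]
    exact m59nf_nu_mul_mem A hp6 h1

end Arch

section Main

variable (M p : ℕ) [NeZero M] [NeZero p] (hp : p.Prime) (hpM : ¬ p ∣ M)
  (A : ValuationSubring Qb) (hA : A.LiesOverPrime p)

local notation "cst" => algebraMap Qb (Fbar (M * p))

/-- the modular unit at level `M p`. -/
abbrev m59nf_u : Fbar (M * p) := s44hu_U p (M * p) ⟨M, mul_comm _ _⟩

/-- `t = p⁶ u⁻¹`. -/
def m59nf_t : Fbar (M * p) := cst ((p : Qb) ^ 6) * (m59nf_u M p)⁻¹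

/-- `y_k = t^k / (1 + t^k)`. -/
def m59nf_y (k : ℕ) : Fbar (M * p) := m59nf_t M p ^ k * (1 + m59nf_t M p ^ k)⁻¹

theorem m59nf_t_ne_zero : m59nf_t M p ≠ 0 := by
  have hp0 : (p : Qb) ≠ 0 := by exact_mod_cast (NeZero.ne p)
  refine mul_ne_zero ?_ (inv_ne_zero (s44hu_U_ne_zero p (M * p) ⟨M, mul_comm _ _⟩))
  rw [Ne, map_eq_zero]
  exact pow_ne_zero _ hp0

include hp hpM in
theorem m59nf_W_t : ssm_al_Wbar M p hp hpM (m59nf_t M p) = (m59nf_t M p)⁻¹ := by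
  have hp0 : (p : Qb) ≠ 0 := by exact_mod_cast (NeZero.ne p)
  have hu0 : m59nf_u M p ≠ 0 := s44hu_U_ne_zero p (M * p) ⟨M, mul_comm _ _⟩
  have hc6 : cst ((p : Qb) ^ 6) ≠ 0 := by
    rw [Ne, map_eq_zero]; exact pow_ne_zero _ hp0
  have hc12 : cst ((p : Qb) ^ 12) = cst ((p : Qb) ^ 6) * cst ((p : Qb) ^ 6) := by
    rw [← map_mul, ← pow_add]
  rw [m59nf_t, map_mul, AlgHom.commutes, map_inv₀, s44hw_unit_W M p hp hpM, hc12]
  field_simp

include hp hpM in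
/-- `W̄ y_k = 1 - y_k`. -/
theorem m59nf_W_y (k : ℕ) (h1 : 1 + m59nf_t M p ^ k ≠ 0) :
    ssm_al_Wbar M p hp hpM (m59nf_y M p k) = 1 - m59nf_y M p k := by
  have ht0 : m59nf_t M p ≠ 0 := m59nf_t_ne_zero M p
  have htk : m59nf_t M p ^ k ≠ 0 := pow_ne_zero _ ht0
  rw [m59nf_y, map_mul, map_inv₀, map_add, map_one, map_pow, m59nf_W_t M p hp hpM, inv_pow]
  generalize m59nf_t M p ^ k = x at h1 htk
  have h2 : 1 + x⁻¹ ≠ 0 := by
    have e : 1 + x⁻¹ = (1 + x) * x⁻¹ := by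
      field_simp
      ring
    rw [e]
    exact mul_ne_zero h1 (inv_ne_zero htk)
  have h3 : x + 1 ≠ 0 := by rwa [add_comm] at h1
  field_simp
  ring

include hA in
/-- `t ∈ 𝔪`. -/
theorem m59nf_t_mem :
    m59nf_t M p ∈ (s44pg_W A hA hp.ne_zero (M * p)).nonunits := by
  have hp6 : ((p : Qb) ^ 6) ∈ A.nonunits := by
    have h1 : (p : Qb) ∈ A.nonunits := hA
    rw [ValuationSubring.mem_nonunits_iff] at h1 ⊢
    rw [map_pow]
    exact pow_lt_one₀ zero_le h1 (by norm_num)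
  exact m59nf_nu_mul_mem _ ((s44pg_const_mem_nonunits A hA hp.ne_zero (M * p) _).2 hp6)
    (s44hu_U_inv_mem A hA hp.ne_zero p (M * p) ⟨M, mul_comm _ _⟩)

include hA in
theorem m59nf_t_pow_mem (k : ℕ) (hk : 1 ≤ k) :
    m59nf_t M p ^ k ∈ (s44pg_W A hA hp.ne_zero (M * p)).nonunits := by
  obtain ⟨j, rfl⟩ : ∃ j, k = j + 1 := ⟨k - 1, by omega⟩
  rw [pow_succ, mul_comm (m59nf_t M p ^ j)]
  exact m59nf_nu_mul_mem _ (m59nf_t_mem M p hp A hA)
    ((s44pg_W A hA hp.ne_zero (M * p)).pow_mem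
      ((s44pg_W A hA hp.ne_zero (M * p)).nonunits_le (m59nf_t_mem M p hp A hA)) j)

include hp hA in
theorem m59nf_one_add_ne_zero (k : ℕ) (hk : 1 ≤ k) : 1 + m59nf_t M p ^ k ≠ 0 := by
  have h1 : (1 + m59nf_t M p ^ k) - 1 ∈ (s44pg_W A hA hp.ne_zero (M * p)).nonunits := by
    rw [add_sub_cancel_left]; exact m59nf_t_pow_mem M p hp A hA k hk
  exact m59nf_pu_ne_zero _ h1

include hA in
/-- `C · y_k ∈ 𝔪` for all large `k`. -/
theorem m59nf_y_small (C : Qb) : ∃ k₀ : ℕ, ∀ k, k₀ ≤ k →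
    cst C * m59nf_y M p k ∈ (s44pg_W A hA hp.ne_zero (M * p)).nonunits := by
  obtain ⟨k₀, hk₀⟩ := m59nf_arch A hp hA C
  refine ⟨k₀ + 1, fun k hk => ?_⟩
  have hk1 : 1 ≤ k := by omega
  have e : cst C * m59nf_y M p k = cst (C * ((p : Qb) ^ 6) ^ k) *
      (((m59nf_u M p)⁻¹) ^ k * (1 + m59nf_t M p ^ k)⁻¹) := by
    rw [map_mul (algebraMap Qb (Fbar (M * p))) C, map_pow, m59nf_y, m59nf_t, mul_pow]
    ring
  rw [e]
  refine m59nf_nu_mul_mem _ ((s44pg_const_mem_nonunits A hA hp.ne_zero (M * p) _).2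
    (hk₀ k (by omega))) ?_
  exact (s44pg_W A hA hp.ne_zero (M * p)).mul_mem _ _
    (pow_mem (s44hu_U_inv_mem A hA hp.ne_zero p (M * p) ⟨M, mul_comm _ _⟩) k)
    (m59nf_one_add_inv_mem _ (m59nf_t_pow_mem M p hp A hA k hk1))

include hA hpM in
/-- **approximation**: `H` with `H / d₁` and `W̄ H / d₂` principal units. -/
theorem m59nf_approx {d₁ d₂ : Qb} (h₁ : d₁ ≠ 0) (h₂ : d₂ ≠ 0) :
    ∃ H : Fbar (M * p),
      H / cst d₁ - 1 ∈ (s44pg_W A hA hp.ne_zero (M * p)).nonunits ∧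
      ssm_al_Wbar M p hp hpM H / cst d₂ - 1 ∈ (s44pg_W A hA hp.ne_zero (M * p)).nonunits := by
  obtain ⟨k₁, hk₁⟩ := m59nf_y_small M p hp A hA (d₂ / d₁ - 1)
  obtain ⟨k₂, hk₂⟩ := m59nf_y_small M p hp A hA (d₁ / d₂ - 1)
  set k := max 1 (max k₁ k₂) with hk
  have hk1 : 1 ≤ k := le_max_left _ _
  have hkk₁ : k₁ ≤ k := le_trans (le_max_left _ _) (le_max_right _ _)
  have hkk₂ : k₂ ≤ k := le_trans (le_max_right _ _) (le_max_right _ _)
  have hW := m59nf_W_y M p hp hpM k (m59nf_one_add_ne_zero M p hp A hA k hk1)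
  have hc₁ : cst d₁ ≠ 0 := by rw [Ne, map_eq_zero]; exact h₁
  have hc₂ : cst d₂ ≠ 0 := by rw [Ne, map_eq_zero]; exact h₂
  refine ⟨cst d₁ * (1 - m59nf_y M p k) + cst d₂ * m59nf_y M p k, ?_, ?_⟩
  · have e : (cst d₁ * (1 - m59nf_y M p k) + cst d₂ * m59nf_y M p k) / cst d₁ - 1 =
        cst (d₂ / d₁ - 1) * m59nf_y M p k := by
      rw [map_sub, map_div₀, map_one]
      field_simp
      ring
    rw [e]
    exact hk₁ k hkk₁
  · have e : ssm_al_Wbar M p hp hpM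
        (cst d₁ * (1 - m59nf_y M p k) + cst d₂ * m59nf_y M p k) / cst d₂ - 1 =
        cst (d₁ / d₂ - 1) * m59nf_y M p k := by
      rw [map_add, map_mul, map_mul, map_sub, map_one, hW, AlgHom.commutes, AlgHom.commutes,
        map_sub, map_div₀, map_one]
      field_simp
      ring
    rw [e]
    exact hk₂ k hkk₂

include hA hpM in
/-- **simultaneous normalisation**: `f H^m` and `W̄ (f H^m)` are units of the Gauss ring. -/
theorem m59nf_normalise {m : ℕ} (hm : m ≠ 0) {f : Fbar (M * p)} (hf : f ≠ 0) :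
    ∃ H : Fbar (M * p), H ≠ 0 ∧
      f * H ^ m ∈ s44pg_W A hA hp.ne_zero (M * p) ∧
      (f * H ^ m)⁻¹ ∈ s44pg_W A hA hp.ne_zero (M * p) ∧
      ssm_al_Wbar M p hp hpM (f * H ^ m) ∈ s44pg_W A hA hp.ne_zero (M * p) ∧
      (ssm_al_Wbar M p hp hpM (f * H ^ m))⁻¹ ∈ s44pg_W A hA hp.ne_zero (M * p) := by
  have hWf : ssm_al_Wbar M p hp hpM f ≠ 0 := by
    rw [Ne, map_eq_zero]; exact hf
  obtain ⟨c₁, hc₁, hu₁, hu₁'⟩ := s44pg_nrm A hA hp.ne_zero (M * p) hf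
  obtain ⟨c₂, hc₂, hu₂, hu₂'⟩ := s44pg_nrm A hA hp.ne_zero (M * p) hWf
  obtain ⟨d₁, hd₁⟩ := IsAlgClosed.exists_pow_nat_eq c₁ (Nat.pos_of_ne_zero hm)
  obtain ⟨d₂, hd₂⟩ := IsAlgClosed.exists_pow_nat_eq c₂ (Nat.pos_of_ne_zero hm)
  have hd₁0 : d₁ ≠ 0 := by
    rintro rfl
    rw [zero_pow hm] at hd₁
    exact hc₁ hd₁.symm
  have hd₂0 : d₂ ≠ 0 := by
    rintro rfl
    rw [zero_pow hm] at hd₂
    exact hc₂ hd₂.symm
  obtain ⟨H, hH₁, hH₂⟩ := m59nf_approx M p hp hpM A hA hd₁0 hd₂0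
  have hcd₁ : cst d₁ ≠ 0 := by rw [Ne, map_eq_zero]; exact hd₁0
  have hcd₂ : cst d₂ ≠ 0 := by rw [Ne, map_eq_zero]; exact hd₂0
  have hH0 : H ≠ 0 := by
    have := m59nf_pu_ne_zero _ hH₁
    intro h0
    rw [h0, zero_div] at this
    exact this rfl
  have hP₁ := m59nf_pu_pow _ hH₁ m
  have hP₂ := m59nf_pu_pow _ hH₂ m
  have e₁ : f * H ^ m = (cst c₁ * f) * (H / cst d₁) ^ m := by
    rw [← hd₁, map_pow, div_pow]
    field_simp
  have e₂ : ssm_al_Wbar M p hp hpM (f * H ^ m) =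
      (cst c₂ * ssm_al_Wbar M p hp hpM f) * (ssm_al_Wbar M p hp hpM H / cst d₂) ^ m := by
    rw [map_mul, map_pow, ← hd₂, map_pow, div_pow]
    field_simp
  refine ⟨H, hH0, ?_, ?_, ?_, ?_⟩
  · rw [e₁]
    exact (s44pg_W A hA hp.ne_zero (M * p)).mul_mem _ _ hu₁ (s33g_pu_mem _ hP₁)
  · rw [e₁, mul_inv]
    exact (s44pg_W A hA hp.ne_zero (M * p)).mul_mem _ _ hu₁' (s33g_pu_mem _ (s33g_pu_inv _ hP₁))
  · rw [e₂]
    exact (s44pg_W A hA hp.ne_zero (M * p)).mul_mem _ _ hu₂ (s33g_pu_mem _ hP₂)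
  · rw [e₂, mul_inv]
    exact (s44pg_W A hA hp.ne_zero (M * p)).mul_mem _ _ hu₂' (s33g_pu_mem _ (s33g_pu_inv _ hP₂))

end Main

end Fermat.Agent.M59
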