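/-
S59 project, cell [STRICT-p], leaf [NEAR-Frob] (helper10; prefix `m59nf_`), file 4: REPRESENTATIVES.

`F/K` a function field with principal divisors, `(D, f)` an `m`-representative of `z ∈ Pic⁰(F)`
(`s44pe_Rep`: `[D] = z`, `m D = div f`).

* `m59nf_rep_mul_pow` : `f r^m` is an `m`-representative of `z` (`r ≠ 0`);
* `m59nf_rep_frob`    : `(g g f / f) / r^m` is an `m`-representative of `g • g • z - z`.
-/
import Mathlib
import Fermat.Agent.S33.Geo.NearAbs

set_option autoImplicit false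

namespace Fermat.Agent.M59

open AlgebraicCurve Fermat.Agent.S24 Fermat.Agent.S44 Fermat.Agent.S33

universe u v
variable {K : Type u} {F : Type v} [Field K] [Field F] [Algebra K F]

/-- modifying a representative by an `m`-th power. -/
theorem m59nf_rep_mul_pow [HasPrincipalDivisors K F] {m : ℕ} {z : Pic0 K F}
    {D : Divisor.degZero (K := K) (F := F)} {f : F} (h : s44pe_Rep m z D f) {r : F}
    (hr : r ≠ 0) :
    ∃ D' : Divisor.degZero (K := K) (F := F), s44pe_Rep m z D' (f * r ^ m) := by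
  obtain ⟨hf0, hD, hfv⟩ := h
  obtain ⟨E, hE, hdeg⟩ := HasPrincipalDivisors.exists_divisor (K := K) r hr
  have hE0 : E ∈ Divisor.degZero (K := K) (F := F) := Divisor.mem_degZero.2 hdeg
  have hprinc : (⟨E, hE0⟩ : Divisor.degZero (K := K) (F := F)) ∈
      (Divisor.principal (K := K) (F := F)).addSubgroupOf
        (Divisor.degZero (K := K) (F := F)) := by
    rw [AddSubgroup.mem_addSubgroupOf]
    exact ⟨r, hr, hE⟩
  have hmk : Pic0.mk (⟨E, hE0⟩ : Divisor.degZero (K := K) (F := F)) = 0 :=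
    (QuotientAddGroup.eq_zero_iff _).2 hprinc
  refine ⟨D + ⟨E, hE0⟩, mul_ne_zero hf0 (pow_ne_zero _ hr), ?_, fun v => ?_⟩
  · rw [Pic0.mk_add, hD, hmk, add_zero]
  · rw [v.ord_mul hf0 (pow_ne_zero _ hr), ← zpow_natCast, v.ord_zpow, ← hfv v,
      AddSubgroup.coe_add, Finsupp.add_apply, hE v]
    ring

/-- the representative of `g • g • z - z`. -/
theorem m59nf_rep_frob [HasPrincipalDivisors K F] {m : ℕ} (g : SemilinearAut K F)
    {z : Pic0 K F} {D : Divisor.degZero (K := K) (F := F)} {f : F} (h : s44pe_Rep m z D f)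
    {r : F} (hr : r ≠ 0) :
    ∃ D' : Divisor.degZero (K := K) (F := F),
      s44pe_Rep m (g • g • z - z) D' ((g • g • f / f) / r ^ m) := by
  have hf0 : f ≠ 0 := h.1
  have hgg := s33g_rep_smul g (s33g_rep_smul g h)
  have hggf0 : g • g • f ≠ 0 := hgg.1
  have hq : s44pe_Rep m (g • g • z - z)
      (SemilinearAut.degZeroSMulHom g (SemilinearAut.degZeroSMulHom g D) - D)
      (g • g • f / f) := by
    refine ⟨div_ne_zero hggf0 hf0, ?_, fun v => ?_⟩
    · rw [sub_eq_add_neg, Pic0.mk_add, hgg.2.1, sub_eq_add_neg]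
      congr 1
      rw [← h.2.1]; rfl
    · rw [div_eq_mul_inv, v.ord_mul hggf0 (inv_ne_zero hf0), v.ord_inv, ← hgg.2.2 v, ← h.2.2 v,
        AddSubgroup.coe_sub, Finsupp.sub_apply]
      ring
  obtain ⟨D', hD'⟩ := m59nf_rep_mul_pow hq (inv_ne_zero hr)
  refine ⟨D', ?_⟩
  have e : g • g • f / f / r ^ m = g • g • f / f * r⁻¹ ^ m := by
    rw [inv_pow, div_eq_mul_inv (g • g • f / f)]
  rw [e]
  exact hD'

end Fermat.Agent.M59
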