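/-
S59 project, cell [STRICT-p] (helper4; prefix `m59st_`): THE SEAM.

Target (helper10's leaf, M59/AtP/Seams.lean): `m59p_StrictForm_stmt` = on a `p`-new eigenclass of
level `A p` (`p ∤ A`, `p` odd) the eigenvalue `u` of a Frobenius element at `p` on an unramified
quotient line of the attached representation has `u² = 1`.

Route (all of it rational, on `K ⊗ T_p J₀(A p)`; `M59/Strict/Wire.lean`):
the class gives a nonzero `p`-new eigenvector of `K ⊗ T_p J₀(A p)` (`twlg_tn_exists`, main); on the
`p`-new eigenspace `W` the abstract core `m59st_core` (M59/Strict/Core.lean) applies with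
`X0 := K · Y`, `Y ⊆ T_p J₀(A p)` the `p`-new TORIC part = the compatible systems `(x_n)` killed by
both push-forwards to the level `A` all of whose components are NEAR at the two Gauss valuations
(`s33g_Near (p ^ n) Wv T (x_n)`, `T = id` and `T = W̄_p`: main's vocabulary of S33/Geo):
 (R1) `(g - 1) T ⊆` near for `g` in the inertia group: `s33g_near_gen` (main);
 (R3) `τ₀ - c` is topologically nilpotent on `Y`: the chain of S33 (`s33g_depth_of_near`,
      `s44dq_core`, `s44t_TorBar`, `s33a_devissage`; M59/Strict/Near.lean);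
 (R2) **`(σ² - 1)` maps the `p`-new part into the near part: THE ONLY LEAF, `m59st_NearFrob_stmt`.**

WHY `m59st_NearFrob_stmt` IS TRUE.  `z ∈ J₀(M p)[p ^ n]`, `(α_p)_* z = (β_p)_* z = 0`, `(D, f)` a
`p ^ n`-representative (`div f = p ^ n D`).  Then `N_α f = c g ^ (p ^ n)`, `N_β f = c' g' ^ (p ^ n)`
(`g, g' ∈ F̄_M`).  After multiplying `f` by a `p ^ n`-th power and a constant, `f` and `W̄ f` are units
of the Gauss ring `Wv` (value group of `ℚ̄` divisible + two incomparable valuations `Wv`, `Wv ∘ W̄`).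
The two-valuations norm formula (main's `rdn_gf_norm_res`, any DVR `O ⊆ L` of residue
characteristic `p`):  `red (N_α f) = red f · Fr (red (W̄ f))`, `red (N_β f) = red (W̄ f) · Fr (red f)`
(`Fr` = the coefficientwise `p`-Frobenius of `k((X))`), hence
`Fr² (red f) / red f = Fr (red N_β f) / red (N_α f) = const · (Fr (red g') / red g) ^ (p ^ n)`.
A Frobenius element `σ` at `A` acts on reductions by `Fr`, so `σ² f / f = c'' · r ^ (p ^ n) · (1 + y)`,
`r = σ g' / g`, `y ∈ 𝔪_{Wv}`: `(σ² f / f) / r ^ (p ^ n)` is a `p ^ n`-representative of `σ² z - z` which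
is a constant times a principal unit.  The same with `W̄ f` in place of `f` gives the second clause.
-/
import Mathlib
import Fermat.Agent.S33.Geo.Core

set_option autoImplicit false
set_option linter.unusedSectionVars false

noncomputable section

namespace Fermat.Agent.M59

open ModularCurve AlgebraicCurve Fermat.Agent.JT3 Fermat.Agent.SS Fermat.Agent.S35
  Fermat.Agent.S44 Fermat.Agent.S33

local notation "Qb" => AlgebraicClosure ℚ

/-- **[NEAR-Frob], the only leaf of [STRICT-p]**: `p` odd, `p ∤ M`, `A` a place of `ℚ̄` over `p`, `σ` a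
Frobenius element at `A`; for `z ∈ J₀(M p)[p ^ n]` killed by both push-forwards to `J₀(M)` the class
`σ² z - z` is NEAR at both Gauss valuations: it has a `p ^ n`-representative `(D, f)` with
`f ∈ ℚ̄ˣ (1 + 𝔪_{Wv})`, and one with `W̄_p f ∈ ℚ̄ˣ (1 + 𝔪_{Wv})`
(`Wv = s44pg_W A` the Gauss valuation ring of `F̄_{M p}` at the cusp `∞`). -/
def m59st_NearFrob_stmt : Prop :=
  ∀ (M p : ℕ) [NeZero M] [NeZero p] (hp : p.Prime), p ≠ 2 → ∀ (hpM : ¬ p ∣ M)
    (A : ValuationSubring Qb) (hA : A.LiesOverPrime p) (σ : Qb ≃ₐ[ℚ] Qb), A.IsFrobeniusAt σ p →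
  ∀ (n : ℕ) (z : JZero (M * p)), p ^ n • z = 0 → s35p_P1J M p z = 0 → s35p_P2J M p z = 0 →
    s33g_Near (p ^ n) (s44pg_W A hA hp.ne_zero (M * p)) (AlgHom.id _ _) (σ • σ • z - z) ∧
    s33g_Near (p ^ n) (s44pg_W A hA hp.ne_zero (M * p)) (ssm_al_Wbar M p hp hpM) (σ • σ • z - z)

end Fermat.Agent.M59
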