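/-
S59 project, cell [STRICT-p], leaf [NEAR-Frob] (helper10; prefix `m59nf_`), file 6: THE LEAF.

`m59nf_nearFrob : m59st_NearFrob_stmt` (M59/Strict/Seams.lean, helper4): for `z ∈ J₀(M p)[p ^ n]` killed
by both push-forwards to `J₀(M)` and `σ` a Frobenius element at a place `A` of `ℚ̄` over `p`, the class
`σ σ z - z` is NEAR at both Gauss valuations.

Proof: a `p ^ n`-representative `f` of `z`, normalised at both Gauss valuations (`m59nf_normalise`);
`N_α f = c g^(p^n)`, `N_β f = N_α (W̄ f) = c' g'^(p^n)` (`s35k_push_kummer`); the core `m59nf_coreF`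
applied to `f` and to `W̄ f`; the representatives `(σ σ f / f) / r₁^(p^n)` and
`(σ σ f / f) / (W̄ r₂)^(p^n)` (`m59nf_rep_frob`).
-/
import Mathlib
import Fermat.Agent.M59.Strict.Seams
import Fermat.Agent.M59.Strict.NFCore
import Fermat.Agent.M59.Strict.NFNrm
import Fermat.Agent.M59.Strict.NFRep

set_option autoImplicit false
set_option linter.unusedSectionVars false
set_option linter.unusedVariables false
set_option linter.style.haveILetI false
set_option maxHeartbeats 1000000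
set_option synthInstance.maxHeartbeats 400000

noncomputable section

namespace Fermat.Agent.M59

open ModularCurve AlgebraicCurve IntermediateField IsLocalRing
open Fermat.Agent.JT3 Fermat.Agent.S24 Fermat.Agent.SS Fermat.Agent.S35 Fermat.Agent.S44
  Fermat.Agent.S33

local notation "Qb" => AlgebraicClosure ℚ

/-- **[NEAR-Frob]**, the only leaf of [STRICT-p]. -/
theorem m59nf_nearFrob : m59st_NearFrob_stmt := by
  intro M p _ _ hp hp2 hpM A hA σ hσ n z hz has hbs
  have hp0 : p ≠ 0 := hp.ne_zero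
  have hm0 : p ^ n ≠ 0 := pow_ne_zero _ hp0
  -- a normalised representative
  obtain ⟨D₀, f₀, hrep₀⟩ := s44pe_exists_rep (p ^ n) z hz
  obtain ⟨H, hH0, hf1, hf2, hw1, hw2⟩ := m59nf_normalise M p hp hpM A hA hm0 hrep₀.1
  obtain ⟨D, hrep⟩ := m59nf_rep_mul_pow hrep₀ hH0
  generalize f₀ * H ^ p ^ n = f at hf1 hf2 hw1 hw2 hrep
  have hf0 : f ≠ 0 := hrep.1
  -- the two norm relations
  obtain ⟨c, g, hg, hN⟩ : ∃ (c : Qb) (g : Fbar M), g ≠ 0 ∧
      s35pe_normAlong (heckeAlphaBar Qb M p) f = algebraMap Qb (Fbar M) c * g ^ p ^ n := by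
    obtain ⟨-, hD, hfv⟩ := hrep
    rw [← hD] at has
    exact s35k_push_kummer (rt_isSepGen_jBar M) _ _ _ _ D hf0 hfv has
  obtain ⟨c', g', hg', hNβ⟩ : ∃ (c : Qb) (g : Fbar M), g ≠ 0 ∧
      s35pe_normAlong (heckeBetaBar Qb M p) f = algebraMap Qb (Fbar M) c * g ^ p ^ n := by
    obtain ⟨-, hD, hfv⟩ := hrep
    rw [← hD] at hbs
    exact s35k_push_kummer (rt_isSepGen_jBar M) _ _ _ _ D hf0 hfv hbs
  have hN' : s35pe_normAlong (heckeAlphaBar Qb M p) (ssm_al_Wbar M p hp hpM f) =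
      algebraMap Qb (Fbar M) c' * g' ^ p ^ n := by
    rw [s44dqn_norm_Wbar]
    exact hNβ
  have hWW : ssm_al_Wbar M p hp hpM (ssm_al_Wbar M p hp hpM f) = f :=
    s44dqn_Wbar_Wbar M p hp hpM f
  have hWf0 : ssm_al_Wbar M p hp hpM f ≠ 0 := by
    rw [Ne, map_eq_zero]; exact hf0
  -- the core, for `f` and for `W̄ f`
  obtain ⟨r₁, hr₁, κ₁, hκ₁, h₁⟩ :=
    m59nf_coreF M p hp hpM A hA σ hσ hf0 hf1 hf2 hw1 hw2 hg hg' hN hN'
  obtain ⟨r₂, hr₂, κ₂, hκ₂, h₂⟩ :=
    m59nf_coreF M p hp hpM A hA σ hσ hWf0 hw1 hw2 (by rw [hWW]; exact hf1)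
      (by rw [hWW]; exact hf2) hg' hg hN' (by rw [hWW]; exact hN)
  constructor
  · obtain ⟨D₁, hD₁⟩ := m59nf_rep_frob
      (arithmeticGalois (modularFunctionFieldFull (M * p)) σ) hrep hr₁
    exact ⟨D₁, _, hD₁, κ₁, hκ₁, h₁⟩
  · have hr₂' : ssm_al_Wbar M p hp hpM r₂ ≠ 0 := by
      rw [Ne, map_eq_zero]; exact hr₂
    obtain ⟨D₂, hD₂⟩ := m59nf_rep_frob
      (arithmeticGalois (modularFunctionFieldFull (M * p)) σ) hrep hr₂'
    refine ⟨D₂, _, hD₂, κ₂, hκ₂, ?_⟩
    have e : ssm_al_Wbar M p hp hpM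
        (arithmeticGalois (modularFunctionFieldFull (M * p)) σ •
          arithmeticGalois (modularFunctionFieldFull (M * p)) σ • f / f /
            ssm_al_Wbar M p hp hpM r₂ ^ p ^ n) =
        arithmeticGalois (modularFunctionFieldFull (M * p)) σ •
          arithmeticGalois (modularFunctionFieldFull (M * p)) σ • ssm_al_Wbar M p hp hpM f /
            ssm_al_Wbar M p hp hpM f / r₂ ^ p ^ n := by
      rw [map_div₀, map_div₀, map_pow, s44dqn_Wbar_Wbar, s44pe_Wbar_smul, s44pe_Wbar_smul]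
    rw [e]
    exact h₂

end Fermat.Agent.M59
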