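/-
S59 project, cell [STRICT-p] (helper4; prefix `m59st_`): THE LINEAR ALGEBRA ON `K ⊗ T_p`.

`Tp` a finite free `ℤ_p`-module with an action `ρT` of a group `G`, `O` a complete DVR-like local
domain over `ℤ_p` with fraction field `K`, `V := K ⊗ Tp`, `ρV := pk_bc K ρT`.

* `m59st_ext K Z`  : the `K`-span of `1 ⊗ Z` in `V` (`Z` a `ℤ_p`-submodule of `Tp`);
* `m59st_ext_map`  : a `ℤ_p`-endomorphism mapping `Z` into `Y` maps `ext Z` into `ext Y` after base change;
* `m59st_sep`      : (topological nilpotence) if `N' ^ n Y ⊆ p ^ n Tp` for all `n`, no nonzero vector of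
                     `ext Y` is an eigenvector of `N'` with a `p`-adic unit eigenvalue;
* **`m59st_abs`**  : the abstract form of [STRICT-p]: `W ≤ ext Z` a nonzero `G`-stable subspace with the
                     exact Cayley–Hamilton relations of an ordinary `ρm : G → GL₂(K)`, and
                     (F1) `(g - 1) Z ⊆ Y` (`g ∈ I`), (F2) `(τ - c') ^ n Y ⊆ p ^ n Tp`,
                     (F3) `(σ² - 1) Z ⊆ Y`  ⟹  `u² = 1`  (core: `m59st_core`).
-/
import Mathlib
import Fermat.Agent.M59.Strict.Core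
import Fermat.Agent.JT3.Pack.MainAux

set_option autoImplicit false
set_option linter.unusedSectionVars false

noncomputable section

namespace Fermat.Agent.M59

open TensorProduct IsLocalRing Fermat.Agent.JT3

/-! ### extension of scalars of a submodule -/

section Ext

variable {R : Type*} [CommRing R] {Tp : Type*} [AddCommGroup Tp] [Module R Tp]
  (K : Type*) [Field K] [Algebra R K]

/-- the `K`-span of `1 ⊗ Z` in `K ⊗ Tp`. -/
def m59st_ext (Z : Submodule R Tp) : Submodule K (K ⊗[R] Tp) :=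
  Submodule.span K ((fun z : Tp => (1 : K) ⊗ₜ[R] z) '' (Z : Set Tp))

variable {K}

theorem m59st_ext_map {Z Y : Submodule R Tp} (f : Tp →ₗ[R] Tp) (hf : ∀ z ∈ Z, f z ∈ Y)
    {x : K ⊗[R] Tp} (hx : x ∈ m59st_ext K Z) : f.baseChange K x ∈ m59st_ext K Y := by
  unfold m59st_ext at hx ⊢
  induction hx using Submodule.span_induction with
  | mem x hx =>
    obtain ⟨z, hz, rfl⟩ := hx
    rw [LinearMap.baseChange_tmul]
    exact Submodule.subset_span ⟨f z, hf z hz, rfl⟩
  | zero => rw [map_zero]; exact Submodule.zero_mem _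
  | add x y _ _ hx hy => rw [map_add]; exact Submodule.add_mem _ hx hy
  | smul k x _ hx => rw [map_smul]; exact Submodule.smul_mem _ k hx

end Ext

/-! ### topological nilpotence -/

section Sep

variable {p : ℕ} [Fact p.Prime]
  {Tp : Type} [AddCommGroup Tp] [Module ℤ_[p] Tp] [Module.Free ℤ_[p] Tp] [Module.Finite ℤ_[p] Tp]
  {O : Type} [CommRing O] [IsDomain O] [IsLocalRing O] [IsNoetherianRing O] [Algebra ℤ_[p] O]
  {K : Type} [Field K] [Algebra O K] [IsFractionRing O K] [Algebra ℤ_[p] K]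
  [IsScalarTower ℤ_[p] O K]

/-- bounded denominators, uniformly in `n`: the coordinates of `N' ^ n x`, `x ∈ ext Y`, are
`p ^ n / a` times integers. -/
theorem m59st_bdd (Y : Submodule ℤ_[p] Tp) (N' : Module.End ℤ_[p] Tp)
    (hN : ∀ y ∈ Y, ∀ n : ℕ, ∃ t : Tp, (N' ^ n) y = (p : ℤ_[p]) ^ n • t)
    {x : K ⊗[ℤ_[p]] Tp} (hx : x ∈ m59st_ext K Y) :
    ∃ a : O, a ≠ 0 ∧ ∀ (n : ℕ) (j : Module.Free.ChooseBasisIndex ℤ_[p] Tp), ∃ o : O,
      algebraMap O K a * (Algebra.TensorProduct.basis K (Module.Free.chooseBasis ℤ_[p] Tp)).repr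
        ((N' ^ n).baseChange K x) j = (p : K) ^ n * algebraMap O K o := by
  unfold m59st_ext at hx
  induction hx using Submodule.span_induction with
  | mem x hx =>
    obtain ⟨y, hy, rfl⟩ := hx
    refine ⟨1, one_ne_zero, fun n j => ?_⟩
    obtain ⟨t, ht⟩ := hN y hy n
    refine ⟨algebraMap ℤ_[p] O ((Module.Free.chooseBasis ℤ_[p] Tp).repr t j), ?_⟩
    rw [LinearMap.baseChange_tmul, ht, Algebra.TensorProduct.basis_repr_tmul, one_smul,
      Finsupp.mapRange_apply, map_one, one_mul, map_smul, Finsupp.smul_apply, smul_eq_mul, map_mul,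
      map_pow, map_natCast, ← IsScalarTower.algebraMap_apply]
  | zero =>
    refine ⟨1, one_ne_zero, fun n j => ⟨0, ?_⟩⟩
    rw [map_zero, map_zero, Finsupp.zero_apply, mul_zero, map_zero, mul_zero]
  | add x y _ _ hx hy =>
    obtain ⟨a, ha, h1⟩ := hx
    obtain ⟨b, hb, h2⟩ := hy
    refine ⟨a * b, mul_ne_zero ha hb, fun n j => ?_⟩
    obtain ⟨o1, ho1⟩ := h1 n j
    obtain ⟨o2, ho2⟩ := h2 n j
    refine ⟨b * o1 + a * o2, ?_⟩
    rw [map_add, map_add, Finsupp.add_apply, map_mul, map_add, map_mul, map_mul]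
    linear_combination (algebraMap O K b) * ho1 + (algebraMap O K a) * ho2
  | smul k x _ hx =>
    obtain ⟨a, ha, h1⟩ := hx
    obtain ⟨⟨k1, k2⟩, hk⟩ := IsLocalization.surj (nonZeroDivisors O) k
    have hk2 : (k2 : O) ≠ 0 := nonZeroDivisors.coe_ne_zero k2
    refine ⟨k2 * a, mul_ne_zero hk2 ha, fun n j => ?_⟩
    obtain ⟨o1, ho1⟩ := h1 n j
    refine ⟨k1 * o1, ?_⟩
    rw [map_smul, map_smul, Finsupp.smul_apply, smul_eq_mul, map_mul, map_mul]
    simp only at hk
    linear_combination (algebraMap O K k1) * ho1 +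
      (algebraMap O K a * (Algebra.TensorProduct.basis K
        (Module.Free.chooseBasis ℤ_[p] Tp)).repr ((N' ^ n).baseChange K x) j) * hk

/-- **topological nilpotence**: if `N' ^ n Y ⊆ p ^ n Tp` for every `n`, then `N'` has no eigenvector
in `ext Y` with eigenvalue a unit of `ℤ_p`. -/
theorem m59st_sep (hpO : (p : O) ∈ maximalIdeal O) (Y : Submodule ℤ_[p] Tp)
    (N' : Module.End ℤ_[p] Tp)
    (hN : ∀ y ∈ Y, ∀ n : ℕ, ∃ t : Tp, (N' ^ n) y = (p : ℤ_[p]) ^ n • t)
    (v : ℤ_[p]) (hv : IsUnit v) {x : K ⊗[ℤ_[p]] Tp} (hx : x ∈ m59st_ext K Y)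
    (hfix : N'.baseChange K x = algebraMap ℤ_[p] K v • x) : x = 0 := by
  obtain ⟨a, ha, h⟩ := m59st_bdd (O := O) Y N' hN hx
  have hinjK : Function.Injective (algebraMap O K) := IsFractionRing.injective O K
  -- the iterates
  have hpow : ∀ n : ℕ, (N' ^ n).baseChange K x = (algebraMap ℤ_[p] K v) ^ n • x := by
    intro n
    induction n with
    | zero => rw [pow_zero, pow_zero, one_smul, Module.End.one_eq_id, LinearMap.baseChange_id,
        LinearMap.id_apply]
    | succ n ih =>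
      rw [pow_succ, LinearMap.baseChange_mul, Module.End.mul_apply, hfix, map_smul, ih, smul_smul,
        ← pow_succ']
  have hne : maximalIdeal O ≠ ⊤ := Ideal.IsPrime.ne_top'
  have hkrull : ∀ z : O, (∀ n, z ∈ maximalIdeal O ^ n) → z = 0 := by
    intro z hz
    have h1 : z ∈ ⨅ n, maximalIdeal O ^ n := by
      rw [Ideal.mem_iInf]; exact hz
    rw [Ideal.iInf_pow_eq_bot_of_isLocalRing _ hne] at h1
    exact h1
  have hvO : IsUnit (algebraMap ℤ_[p] O v) := hv.map _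
  apply (Algebra.TensorProduct.basis K (Module.Free.chooseBasis ℤ_[p] Tp)).repr.injective
  ext j
  rw [map_zero, Finsupp.zero_apply]
  set r := (Algebra.TensorProduct.basis K (Module.Free.chooseBasis ℤ_[p] Tp)).repr x j with hr
  obtain ⟨o0, ho0⟩ := h 0 j
  rw [hpow 0, pow_zero, one_smul, pow_zero, one_mul, ← hr] at ho0
  have ho0z : o0 = 0 := by
    apply hkrull
    intro n
    obtain ⟨on, hon⟩ := h n j
    rw [hpow n, map_smul, Finsupp.smul_apply, smul_eq_mul, ← hr] at hon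
    have h1 : algebraMap O K (algebraMap ℤ_[p] O v ^ n * o0) =
        algebraMap O K ((p : O) ^ n * on) := by
      rw [map_mul, map_mul, map_pow, map_pow, map_natCast, ← IsScalarTower.algebraMap_apply, ← ho0,
        ← hon]
      ring
    have h2 := hinjK h1
    obtain ⟨w, hw⟩ := hvO
    have h3 : o0 = (p : O) ^ n * (((w⁻¹ : Oˣ) : O) ^ n * on) := by
      have h4 : ((w⁻¹ : Oˣ) : O) ^ n * ((w : O) ^ n * o0) = o0 := by
        rw [← mul_assoc, ← mul_pow, Units.inv_mul, one_pow, one_mul]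
      rw [← h4, hw, h2]
      ring
    rw [h3]
    exact Ideal.mul_mem_right _ _ (Ideal.pow_mem_pow hpO n)
  rw [ho0z, map_zero] at ho0
  rcases mul_eq_zero.mp ho0 with h5 | h5
  · exact absurd (hinjK (h5.trans (map_zero _).symm)) ha
  · exact h5

end Sep

/-! ### the abstract form of [STRICT-p] -/

section Main

variable {p : ℕ} [Fact p.Prime]
  {Tp : Type} [AddCommGroup Tp] [Module ℤ_[p] Tp] [Module.Free ℤ_[p] Tp] [Module.Finite ℤ_[p] Tp]
  {O : Type} [CommRing O] [IsDomain O] [IsLocalRing O] [IsNoetherianRing O] [Algebra ℤ_[p] O]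
  {K : Type} [Field K] [Algebra O K] [IsFractionRing O K] [Algebra ℤ_[p] K]
  [IsScalarTower ℤ_[p] O K]
  {G : Type} [Group G]

/-- the action on a stable subspace. -/
def m59st_alpha (ρV : G →* Module.End K (K ⊗[ℤ_[p]] Tp)) (W : Submodule K (K ⊗[ℤ_[p]] Tp))
    (hWst : ∀ g, ∀ w ∈ W, ρV g w ∈ W) : G →* Module.End K ↥W where
  toFun g := (ρV g).restrict (hWst g)
  map_one' := by
    ext w
    simp
  map_mul' g h := by
    ext w
    simp

theorem m59st_alpha_coe (ρV : G →* Module.End K (K ⊗[ℤ_[p]] Tp))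
    (W : Submodule K (K ⊗[ℤ_[p]] Tp)) (hWst : ∀ g, ∀ w ∈ W, ρV g w ∈ W) (g : G) (w : ↥W) :
    ((m59st_alpha ρV W hWst g w : ↥W) : K ⊗[ℤ_[p]] Tp) = ρV g (w : K ⊗[ℤ_[p]] Tp) := rfl

/-- **[STRICT-p], abstract form.** -/
theorem m59st_abs (hpO : (p : O) ∈ maximalIdeal O)
    (ρT : G →* Module.End ℤ_[p] Tp) (Z Y : Submodule ℤ_[p] Tp)
    (W : Submodule K (K ⊗[ℤ_[p]] Tp)) (hW0 : W ≠ ⊥)
    (hWst : ∀ g, ∀ w ∈ W, pk_bc K ρT g w ∈ W) (hWZ : W ≤ m59st_ext K Z)
    (ρm : G →* Matrix (Fin 2) (Fin 2) K) (hspan : Submodule.span K (Set.range ρm) = ⊤)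
    (hCH : ∀ g, ∀ w ∈ W, pk_bc K ρT g (pk_bc K ρT g w) - (ρm g).trace • pk_bc K ρT g w +
      (ρm g).det • w = 0)
    (I : Subgroup G) (σ τ : G) (hτ : τ ∈ I)
    (hσ : ρm σ 1 0 = 0) (u : K) (hu : ρm σ 1 1 = u)
    (hI : ∀ g ∈ I, ρm g 1 0 = 0 ∧ ρm g 1 1 = 1)
    (c : K) (hc : ρm τ 0 0 = c) (hc1 : 1 - c ≠ 0)
    (c' : ℤ_[p]) (hc' : IsUnit (1 - c'))
    (hF1 : ∀ g ∈ I, ∀ z ∈ Z, ρT g z - z ∈ Y)
    (hF2 : ∀ y ∈ Y, ∀ n : ℕ, ∃ t : Tp,
      ((ρT τ - c' • (1 : Module.End ℤ_[p] Tp)) ^ n) y = (p : ℤ_[p]) ^ n • t)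
    (hF3 : ∀ z ∈ Z, ρT σ (ρT σ z) - z ∈ Y) :
    u ^ 2 = 1 := by
  classical
  set α := m59st_alpha (pk_bc K ρT) W hWst with hα
  set X0 : AddSubgroup ↥W :=
    (m59st_ext K Y).toAddSubgroup.comap W.subtype.toAddMonoidHom with hX0
  have hmemX0 : ∀ x : ↥W, x ∈ X0 ↔ (x : K ⊗[ℤ_[p]] Tp) ∈ m59st_ext K Y := fun x => Iff.rfl
  have key : ∀ x : ↥W, u ^ 2 • x = x := by
    refine m59st_core ρm α hspan ?_ I σ τ hτ hσ u hu hI c hc (IsUnit.mk0 _ hc1) X0 ?_ ?_ ?_
    · -- Cayley–Hamilton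
      intro g
      ext w
      have := hCH g w w.2
      simp only [LinearMap.add_apply, LinearMap.sub_apply, Module.End.mul_apply,
        LinearMap.smul_apply, Module.End.one_apply, LinearMap.zero_apply, Submodule.coe_add,
        Submodule.coe_sub, Submodule.coe_smul, Submodule.coe_zero, hα, m59st_alpha_coe]
      exact this
    · -- (R1)
      intro x hx
      rw [hmemX0]
      have h1 : (ρT τ - 1).baseChange K (x : K ⊗[ℤ_[p]] Tp) ∈ m59st_ext K Y :=
        m59st_ext_map (ρT τ - 1) (fun z hz => by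
          rw [LinearMap.sub_apply, Module.End.one_apply]
          exact hF1 τ hτ z hz) (hWZ x.2)
      have h2 : (ρT τ - 1).baseChange K (x : K ⊗[ℤ_[p]] Tp) = (c - 1) • (x : K ⊗[ℤ_[p]] Tp) := by
        have h3 := congrArg (Subtype.val) hx
        rw [hα, m59st_alpha_coe, pk_bc_apply, Submodule.coe_smul] at h3
        rw [LinearMap.baseChange_sub, LinearMap.sub_apply, h3, Module.End.one_eq_id,
          LinearMap.baseChange_id, LinearMap.id_apply]
        module
      rw [h2] at h1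
      have hc2 : c - 1 ≠ 0 := fun h => hc1 (by rw [← neg_sub, h, neg_zero])
      have h4 := (m59st_ext K Y).smul_mem (c - 1)⁻¹ h1
      rwa [smul_smul, inv_mul_cancel₀ hc2, one_smul] at h4
    · -- (R2)
      intro x
      rw [hmemX0]
      have h1 : (ρT σ * ρT σ - 1).baseChange K (x : K ⊗[ℤ_[p]] Tp) ∈ m59st_ext K Y :=
        m59st_ext_map (ρT σ * ρT σ - 1) (fun z hz => by
          rw [LinearMap.sub_apply, Module.End.one_apply, Module.End.mul_apply]
          exact hF3 z hz) (hWZ x.2)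
      rw [LinearMap.baseChange_sub, LinearMap.sub_apply, LinearMap.baseChange_mul,
        Module.End.mul_apply, Module.End.one_eq_id, LinearMap.baseChange_id,
        LinearMap.id_apply] at h1
      exact h1
    · -- (R3)
      intro M1 hM1st hM1X hM1 x hx
      -- `y := τ x - c x`, in the ambient space
      have hyM := M1.add_mem (hM1st τ x hx) (M1.smul_mem (-c) hx)
      have hyX := (hmemX0 _).1 (hM1X _ hyM)
      rw [Submodule.coe_add, Submodule.coe_smul, hα, m59st_alpha_coe] at hyX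
      have h1 := congrArg Subtype.val (hM1 τ hτ x hx)
      have h1' : pk_bc K ρT τ (pk_bc K ρT τ (x : K ⊗[ℤ_[p]] Tp) - (x : K ⊗[ℤ_[p]] Tp)) =
          c • (pk_bc K ρT τ (x : K ⊗[ℤ_[p]] Tp) - (x : K ⊗[ℤ_[p]] Tp)) := h1
      have hfix : pk_bc K ρT τ
          (pk_bc K ρT τ (x : K ⊗[ℤ_[p]] Tp) + -c • (x : K ⊗[ℤ_[p]] Tp)) =
          pk_bc K ρT τ (x : K ⊗[ℤ_[p]] Tp) + -c • (x : K ⊗[ℤ_[p]] Tp) := by
        rw [map_add, map_smul]
        rw [map_sub, smul_sub] at h1'
        have e : pk_bc K ρT τ (pk_bc K ρT τ (x : K ⊗[ℤ_[p]] Tp)) =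
            c • pk_bc K ρT τ (x : K ⊗[ℤ_[p]] Tp) - c • (x : K ⊗[ℤ_[p]] Tp) +
              pk_bc K ρT τ (x : K ⊗[ℤ_[p]] Tp) := by
          rw [← h1']
          abel
        rw [e]
        module
      have h2 : (ρT τ - c' • (1 : Module.End ℤ_[p] Tp)).baseChange K
          (pk_bc K ρT τ (x : K ⊗[ℤ_[p]] Tp) + -c • (x : K ⊗[ℤ_[p]] Tp)) =
          algebraMap ℤ_[p] K (1 - c') •
            (pk_bc K ρT τ (x : K ⊗[ℤ_[p]] Tp) + -c • (x : K ⊗[ℤ_[p]] Tp)) := by
        rw [pk_bc_apply] at hfix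
        rw [LinearMap.baseChange_sub, LinearMap.sub_apply, ← pk_bc_apply, pk_bc_apply, hfix,
          LinearMap.baseChange_smul, LinearMap.smul_apply, Module.End.one_eq_id,
          LinearMap.baseChange_id, LinearMap.id_apply, map_sub, map_one,
          ← algebraMap_smul K c']
        module
      have h4 := m59st_sep (O := O) hpO Y (ρT τ - c' • (1 : Module.End ℤ_[p] Tp)) hF2 (1 - c') hc'
        hyX h2
      apply Subtype.ext
      rw [Submodule.coe_smul, hα, m59st_alpha_coe]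
      have h5 : pk_bc K ρT τ (x : K ⊗[ℤ_[p]] Tp) =
          (pk_bc K ρT τ (x : K ⊗[ℤ_[p]] Tp) + -c • (x : K ⊗[ℤ_[p]] Tp)) +
            c • (x : K ⊗[ℤ_[p]] Tp) := by module
      rw [h5, h4, zero_add]
  obtain ⟨x, hxW, hx0⟩ := (Submodule.ne_bot_iff W).1 hW0
  have h1 := key ⟨x, hxW⟩
  have h2 : (u ^ 2 - 1) • x = 0 := by
    have h3 := congrArg Subtype.val h1
    rw [Submodule.coe_smul] at h3
    have h4 : (u ^ 2 - 1) • x = u ^ 2 • x - x := by module
    rw [h4, h3, sub_self]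
  rcases smul_eq_zero.mp h2 with h | h
  · exact sub_eq_zero.mp h
  · exact absurd h hx0

end Main

end Fermat.Agent.M59
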