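/-
S59 project, cell [STRICT-p] (helper4; prefix `m59st_`): KERNELS AFTER A FLAT BASE CHANGE.

`K` a field which is a flat algebra over `R`, `f g : T →ₗ[R] T'`:

* `m59st_ker_baseChange_le` : `ker (K ⊗ f) ⊆ K · (1 ⊗ ker f)`;
* `m59st_ker_inf_le`        : `ker (K ⊗ f) ∩ ker (K ⊗ g) ⊆ K · (1 ⊗ (ker f ∩ ker g))`.
-/
import Mathlib
import Fermat.Agent.M59.Strict.Abs

set_option autoImplicit false
set_option linter.unusedSectionVars false

noncomputable section

namespace Fermat.Agent.M59

open TensorProduct

section

variable {R : Type*} [CommRing R] (K : Type*) [Field K] [Algebra R K] [Module.Flat R K]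
  {T T' : Type*} [AddCommGroup T] [Module R T] [AddCommGroup T'] [Module R T']

theorem m59st_ker_baseChange_le (f : T →ₗ[R] T') :
    LinearMap.ker (f.baseChange K) ≤ m59st_ext K (LinearMap.ker f) := by
  intro x hx
  have h1 : x ∈ LinearMap.ker (AlgebraTensorModule.lTensor K K f) := hx
  rw [Module.Flat.ker_lTensor_eq] at h1
  obtain ⟨y, rfl⟩ := h1
  clear hx
  unfold m59st_ext
  induction y using TensorProduct.induction_on with
  | zero => rw [map_zero]; exact Submodule.zero_mem _
  | tmul k z =>
    have h2 : AlgebraTensorModule.lTensor K K (LinearMap.ker f).subtype (k ⊗ₜ[R] z) =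
        k • ((1 : K) ⊗ₜ[R] (z : T)) := by
      rw [TensorProduct.smul_tmul', smul_eq_mul, mul_one]
      rfl
    rw [h2]
    exact Submodule.smul_mem _ _ (Submodule.subset_span ⟨z.1, z.2, rfl⟩)
  | add a b ha hb =>
    rw [map_add]
    exact Submodule.add_mem _ ha hb

theorem m59st_ker_inf_le (f g : T →ₗ[R] T') :
    LinearMap.ker (f.baseChange K) ⊓ LinearMap.ker (g.baseChange K) ≤
      m59st_ext K (LinearMap.ker f ⊓ LinearMap.ker g) := by
  intro x hx
  have hk : LinearMap.ker (f.prod g) = LinearMap.ker f ⊓ LinearMap.ker g := LinearMap.ker_prod f g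
  rw [← hk]
  apply m59st_ker_baseChange_le K (f.prod g)
  rw [LinearMap.mem_ker]
  apply (TensorProduct.prodRight R K K T' T').injective
  have h1 : ∀ y : K ⊗[R] T, TensorProduct.prodRight R K K T' T' ((f.prod g).baseChange K y) =
      (f.baseChange K y, g.baseChange K y) := by
    intro y
    induction y using TensorProduct.induction_on with
    | zero => rw [map_zero, map_zero, map_zero, map_zero]; rfl
    | tmul k t =>
      rw [LinearMap.baseChange_tmul, TensorProduct.prodRight_tmul, LinearMap.baseChange_tmul,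
        LinearMap.baseChange_tmul]
      rfl
    | add a b ha hb => rw [map_add, map_add, ha, hb, map_add, map_add, Prod.mk_add_mk]
  rw [h1, LinearMap.mem_ker.1 hx.1, LinearMap.mem_ker.1 hx.2, map_zero]
  rfl

end

end Fermat.Agent.M59
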