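/-
S59 project, cell [STRICT-p] (helper4; prefix `m59st_`): THE MATRICES OF `ρ` OVER THE FRACTION FIELD.

`ρ : GaloisRepAdic O`, `b` a basis of `ρ.V`, `K` a field over `O`:

* `m59st_rhoK ρ b K : G_ℚ →* M₂(K)`, `g ↦ [ρ(g)]_b` with entries pushed to `K`;
* `m59st_rhoK_trace`, `m59st_rhoK_det`;
* `m59st_rhoK_span` : the matrices span `M₂(K)` when `ρ` is residually absolutely irreducible
                      (`ur_tr_span_eq_top`);
* `m59st_rhoK_10`, `m59st_rhoK_11` : the lower entries of an element preserving the line `O b₀`,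
  resp. acting by `z` modulo the line.
-/
import Mathlib
import Fermat.Agent.JT3.Unram.TraceRigid

set_option autoImplicit false
set_option linter.unusedSectionVars false

noncomputable section

namespace Fermat.Agent.M59

open Fermat.Agent.JT3

local notation "GQ" => (AlgebraicClosure ℚ ≃ₐ[ℚ] AlgebraicClosure ℚ)

section

variable {O : Type} [CommRing O] [IsLocalRing O] (ρ : GaloisRepAdic O)
  (b : Module.Basis (Fin 2) O ρ.V) (K : Type) [Field K] [Algebra O K]

/-- the matrices of `ρ` in the basis `b`, with entries in `K`. -/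
def m59st_rhoK : GQ →* Matrix (Fin 2) (Fin 2) K where
  toFun g := (LinearMap.toMatrix b b (ρ.ρ g)).map (algebraMap O K)
  map_one' := by
    rw [map_one, Module.End.one_eq_id, LinearMap.toMatrix_id,
      Matrix.map_one _ (map_zero _) (map_one _)]
  map_mul' g h := by
    rw [map_mul, Module.End.mul_eq_comp, LinearMap.toMatrix_comp b b b, Matrix.map_mul]

theorem m59st_rhoK_apply (g : GQ) :
    m59st_rhoK ρ b K g = (LinearMap.toMatrix b b (ρ.ρ g)).map (algebraMap O K) := rfl

theorem m59st_rhoK_entry (g : GQ) (i j : Fin 2) :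
    m59st_rhoK ρ b K g i j = algebraMap O K (LinearMap.toMatrix b b (ρ.ρ g) i j) := rfl

theorem m59st_rhoK_trace (g : GQ) :
    (m59st_rhoK ρ b K g).trace = algebraMap O K (LinearMap.trace O ρ.V (ρ.ρ g)) := by
  rw [LinearMap.trace_eq_matrix_trace O b, m59st_rhoK_apply]
  exact (AddMonoidHom.map_trace (algebraMap O K).toAddMonoidHom _).symm

theorem m59st_rhoK_det (g : GQ) :
    (m59st_rhoK ρ b K g).det = algebraMap O K (LinearMap.det (ρ.ρ g)) := by
  rw [← LinearMap.det_toMatrix b, m59st_rhoK_apply]
  exact (RingHom.map_det (algebraMap O K) _).symm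

/-- an element preserving the line `O b₀` has lower left entry `0`. -/
theorem m59st_rhoK_10 (g : GQ) (h : ρ.ρ g (b 0) ∈ Submodule.span O {b 0}) :
    m59st_rhoK ρ b K g 1 0 = 0 := by
  obtain ⟨a, ha⟩ := Submodule.mem_span_singleton.mp h
  rw [m59st_rhoK_entry, LinearMap.toMatrix_apply, ← ha, map_smul, b.repr_self]
  simp

/-- an element acting by `z` modulo the line `O b₀` has lower right entry `z`. -/
theorem m59st_rhoK_11 (g : GQ) (z : O)
    (h : ρ.ρ g (b 1) - z • b 1 ∈ Submodule.span O {b 0}) :
    m59st_rhoK ρ b K g 1 1 = algebraMap O K z := by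
  obtain ⟨a, ha⟩ := Submodule.mem_span_singleton.mp h
  have h1 : ρ.ρ g (b 1) = z • b 1 + a • b 0 := by rw [ha]; abel
  rw [m59st_rhoK_entry, LinearMap.toMatrix_apply, h1, map_add, map_smul, map_smul, b.repr_self,
    b.repr_self]
  simp

/-- the matrices of a residually absolutely irreducible `ρ` span `M₂(K)`. -/
theorem m59st_rhoK_span (habs : ρ.residual.IsAbsolutelyIrreducible) :
    Submodule.span K (Set.range (m59st_rhoK ρ b K)) = ⊤ := by
  classical
  have hspan := ur_tr_span_eq_top ρ habs
  -- the image of every endomorphism lies in the span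
  have hall : ∀ f : Module.End O ρ.V, (LinearMap.toMatrix b b f).map (algebraMap O K) ∈
      Submodule.span K (Set.range (m59st_rhoK ρ b K)) := by
    intro f
    have hf : f ∈ Submodule.span O (Set.range ρ.ρ) := hspan ▸ Submodule.mem_top
    induction hf using Submodule.span_induction with
    | mem x hx =>
      obtain ⟨g, rfl⟩ := hx
      exact Submodule.subset_span ⟨g, rfl⟩
    | zero =>
      rw [map_zero, Matrix.map_zero _ (map_zero _)]
      exact Submodule.zero_mem _
    | add x y _ _ hx hy =>
      rw [map_add, Matrix.map_add _ (map_add _)]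
      exact Submodule.add_mem _ hx hy
    | smul a x _ hx =>
      have h1 : (LinearMap.toMatrix b b (a • x)).map (algebraMap O K) =
          algebraMap O K a • (LinearMap.toMatrix b b x).map (algebraMap O K) := by
        rw [map_smul]
        ext i j
        simp [Matrix.map_apply, Matrix.smul_apply]
      rw [h1]
      exact Submodule.smul_mem _ _ hx
  rw [eq_top_iff]
  intro A _
  rw [Matrix.matrix_eq_sum_single A]
  refine Submodule.sum_mem _ fun i _ => Submodule.sum_mem _ fun j _ => ?_
  have h2 : Matrix.single i j (A i j) =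
      A i j • (LinearMap.toMatrix b b (Matrix.toLin b b (Matrix.single i j (1 : O)))).map
        (algebraMap O K) := by
    rw [LinearMap.toMatrix_toLin]
    ext i' j'
    simp only [Matrix.smul_apply, Matrix.map_apply, Matrix.single_apply, smul_eq_mul]
    split_ifs <;> simp
  rw [h2]
  exact Submodule.smul_mem _ _ (hall _)

end

end Fermat.Agent.M59
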