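/-
S59 project, cell [STRICT-p] (helper4; prefix `m59st_`): THE TORIC PART, FINITE LEVEL.

`N = M p`, `p ∤ M`, `p` odd, `A` a place of `ℚ̄` over `p`, `I` its inertia group, `Wv = s44pg_W A` the
Gauss valuation ring of `F̄_N`.

* `m59st_near_smul` : `s33g_Near` is stable under inertial semilinear automorphisms commuting with `T`;
* `m59st_X M p hp hpM A hA n` : the subgroup of `J₀(N)` of the classes killed by `p ^ n` and by both
  push-forwards to `J₀(M)` which are NEAR at `Wv` and at `Wv ∘ W̄_p` (level `p ^ n`);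
* `m59st_X_stable`  : it is stable under `I`;
* `m59st_tors`      : on `X[p]` an element `τ₀ ∈ I` acts through the cyclotomic character mod `p`
                      (the chain of `s33g_core`, with the NEAR hypotheses in place of `(I - 1) J[p ^ n]`);
* **`m59st_nilp`**  : `(τ₀ - c) ^ n = 0` on `m59st_X … n`  (dévissage `s33a_devissage`);
* `m59st_aug_mem`   : `(g - 1) z ∈ m59st_X … n` for `g ∈ I`, `z ∈ J₀(N)[p ^ n]` killed by both
                      push-forwards.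
-/
import Mathlib
import Fermat.Agent.S33.Geo.Nilp

set_option autoImplicit false
set_option linter.unusedSectionVars false
set_option linter.style.haveILetI false

noncomputable section

namespace Fermat.Agent.M59

open ModularCurve AlgebraicCurve Fermat.Agent.JT3 Fermat.Agent.SS Fermat.Agent.S35
  Fermat.Agent.S44 Fermat.Agent.S33 Fermat.Agent.S24

local notation "Qb" => AlgebraicClosure ℚ

/-! ### abstract: NEAR is stable under inertial automorphisms -/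

section Abs

universe u v
variable {K : Type u} {F : Type v} [Field K] [Field F] [Algebra K F]

theorem m59st_nonunits_add (Wv : ValuationSubring F) {a b : F} (ha : a ∈ Wv.nonunits)
    (hb : b ∈ Wv.nonunits) : a + b ∈ Wv.nonunits := by
  rw [ValuationSubring.mem_nonunits_iff] at ha hb ⊢
  exact Valuation.map_add_lt _ ha hb

/-- an inertial automorphism preserves the maximal ideal. -/
theorem m59st_smul_nonunits (Wv : ValuationSubring F) (g : SemilinearAut K F)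
    (hinv : ∀ f ∈ Wv, g • f - f ∈ Wv.nonunits) {x : F} (hx : x ∈ Wv.nonunits) :
    g • x ∈ Wv.nonunits := by
  have h1 := hinv x (Wv.nonunits_le hx)
  have h2 : g • x = (g • x - x) + x := by ring
  rw [h2]
  exact m59st_nonunits_add Wv h1 hx

theorem m59st_near_smul {q : ℕ} {Wv : ValuationSubring F} {T : F →ₐ[K] F}
    (g : SemilinearAut K F) (hinv : ∀ f ∈ Wv, g • f - f ∈ Wv.nonunits)
    (hT : ∀ f : F, T (g • f) = g • T f) {y : Pic0 K F} (h : s33g_Near q Wv T y) :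
    s33g_Near q Wv T (g • y) := by
  obtain ⟨D, f, hrep, c, hc, hm⟩ := h
  refine ⟨SemilinearAut.degZeroSMulHom g D, g • f, s33g_rep_smul g hrep,
    SemilinearAut.baseAut g c, ?_, ?_⟩
  · rw [Ne, EmbeddingLike.map_eq_zero_iff]
    exact hc
  · have h1 := m59st_smul_nonunits Wv g hinv hm
    have h2 : g • (T f / algebraMap K F c - 1) =
        T (g • f) / algebraMap K F (SemilinearAut.baseAut g c) - 1 := by
      rw [smul_sub, smul_one, div_eq_mul_inv, smul_mul', smul_inv'', SemilinearAut.smul_algebraMap,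
        hT, div_eq_mul_inv]
    rwa [h2] at h1

end Abs

/-! ### the near `p`-new classes of level `p ^ n` -/

section

variable (M p : ℕ) [NeZero M] [NeZero p] (hp : p.Prime) (hpM : ¬ p ∣ M)
  (A : ValuationSubring Qb) (hA : A.LiesOverPrime p)

/-- the subgroup of the `p`-new classes of `J₀(M p)[p ^ n]` which are NEAR at both components. -/
def m59st_X (n : ℕ) : AddSubgroup (JZero (M * p)) where
  carrier := {x | p ^ n • x = 0 ∧ s35p_P1J M p x = 0 ∧ s35p_P2J M p x = 0 ∧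
    s33g_Near (p ^ n) (s44pg_W A hA hp.ne_zero (M * p)) (AlgHom.id _ _) x ∧
    s33g_Near (p ^ n) (s44pg_W A hA hp.ne_zero (M * p)) (ssm_al_Wbar M p hp hpM) x}
  zero_mem' := ⟨smul_zero _, map_zero _, map_zero _, s33g_near_zero _ _ _, s33g_near_zero _ _ _⟩
  add_mem' := by
    rintro x y ⟨hx, hx1, hx2, hx3, hx4⟩ ⟨hy, hy1, hy2, hy3, hy4⟩
    refine ⟨?_, ?_, ?_, s33g_near_add hx3 hy3, s33g_near_add hx4 hy4⟩
    · rw [nsmul_add, hx, hy, add_zero]
    · rw [map_add, hx1, hy1, add_zero]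
    · rw [map_add, hx2, hy2, add_zero]
  neg_mem' := by
    rintro x ⟨hx, hx1, hx2, hx3, hx4⟩
    refine ⟨?_, ?_, ?_, s33g_near_neg hx3, s33g_near_neg hx4⟩
    · have h := congrArg Neg.neg hx
      rwa [← neg_nsmul, neg_zero] at h
    · rw [map_neg, hx1, neg_zero]
    · rw [map_neg, hx2, neg_zero]

theorem m59st_mem_X (n : ℕ) (x : JZero (M * p)) :
    x ∈ m59st_X M p hp hpM A hA n ↔ p ^ n • x = 0 ∧ s35p_P1J M p x = 0 ∧ s35p_P2J M p x = 0 ∧
      s33g_Near (p ^ n) (s44pg_W A hA hp.ne_zero (M * p)) (AlgHom.id _ _) x ∧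
      s33g_Near (p ^ n) (s44pg_W A hA hp.ne_zero (M * p)) (ssm_al_Wbar M p hp hpM) x :=
  Iff.rfl

/-- the inertia group acts trivially on the residue field of the Gauss ring. -/
theorem m59st_hinv (τ : Qb ≃ₐ[ℚ] Qb) (hτ : τ ∈ A.inertiaSubgroupIn ℚ) :
    ∀ f ∈ s44pg_W A hA hp.ne_zero (M * p),
      arithmeticGalois (modularFunctionFieldFull (M * p)) τ • f - f ∈
        (s44pg_W A hA hp.ne_zero (M * p)).nonunits :=
  fun f hf => s44pe_inv (M * p) A (s44pg_W A hA hp.ne_zero (M * p))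
    (fun b => s44pg_mem_iff A hA hp.ne_zero (M * p) b) τ hτ f hf

theorem m59st_X_stable (n : ℕ) (τ : ↥(A.inertiaSubgroupIn ℚ)) :
    ∀ x ∈ m59st_X M p hp hpM A hA n, τ • x ∈ m59st_X M p hp hpM A hA n := by
  rintro x ⟨hx, hx1, hx2, hx3, hx4⟩
  rw [Subgroup.smul_def]
  refine ⟨?_, ?_, ?_, ?_, ?_⟩
  · rw [← s33g_gal_nsmul, hx, s33g_gal_zero]
  · rw [s35p_P1J_smul, hx1, s33g_gal_zero]
  · rw [s35p_P2J_smul, hx2, s33g_gal_zero]
  · exact m59st_near_smul (arithmeticGalois (modularFunctionFieldFull (M * p)) τ.1)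
      (m59st_hinv M p hp A hA τ.1 τ.2) (fun _ => rfl) hx3
  · exact m59st_near_smul (arithmeticGalois (modularFunctionFieldFull (M * p)) τ.1)
      (m59st_hinv M p hp A hA τ.1 τ.2) (fun f => s44pe_Wbar_smul M p hp hpM τ.1 f) hx4

include hA in
/-- **(INV+)** from NEAR: a `p`-torsion class which is `p ^ n`-near (`n ≥ 1`) at `Wv ∘ T` has depth
`> 0` there. -/
theorem m59st_depth_of_near (n : ℕ) (hn : 1 ≤ n)
    (T : modularFunctionFieldBar (M * p) →ₐ[Qb] modularFunctionFieldBar (M * p))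
    (x : JZero (M * p)) (hx : p • x = 0)
    (hnear : s33g_Near (p ^ n) (s44pg_W A hA hp.ne_zero (M * p)) T x) :
    ∃ c : Qb, c ≠ 0 ∧ c ∈ A.nonunits ∧ s44f_Depth2 (M * p) A p c T x := by
  have hp0 : p ≠ 0 := hp.ne_zero
  set Wv := s44pg_W A hA hp0 (M * p) with hWv
  have hnrm : ∀ f : modularFunctionFieldBar (M * p), f ≠ 0 → ∃ c : Qb, c ≠ 0 ∧
      algebraMap Qb (modularFunctionFieldBar (M * p)) c * f ∈ Wv ∧
      (algebraMap Qb (modularFunctionFieldBar (M * p)) c * f)⁻¹ ∈ Wv :=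
    fun f hf => s44pg_nrm A hA hp0 (M * p) hf
  have hpW : ((p : ℕ) : modularFunctionFieldBar (M * p)) ∈ Wv.nonunits := by
    have h1 := (s44pg_const_mem_nonunits A hA hp0 (M * p) (p : Qb)).2 hA
    rwa [map_natCast] at h1
  obtain ⟨f, ⟨hf0, D, hD, hord⟩, h, y, hh, hy, hTf⟩ :=
    s33g_depth_of_near hp hn x hx (s44pe_hconst (M * p)) Wv hpW hnrm T hnear
  obtain ⟨c, hc0, hcA, b, hb, hyb⟩ := (s44pg_mem_nonunits_iff A hA hp0 (M * p) y).1 hy
  exact ⟨c, hc0, hcA, f, ⟨hf0, D, hD, hord⟩, h, b, hh,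
    (s44pg_mem_iff A hA hp0 (M * p) b).1 hb, by rw [hTf, hyb]⟩

include hA in
/-- **the `n = 1` core on the near part** (the chain of `s33g_core`). -/
theorem m59st_tors (hp2 : ¬ 2 ∣ p) (n : ℕ) (hn : 1 ≤ n) (τ₀ : Qb ≃ₐ[ℚ] Qb)
    (hτ₀ : τ₀ ∈ A.inertiaSubgroupIn ℚ) (c : ℕ) (ζ : Qb) (hζ1 : ζ ^ p = 1) (hζ2 : ζ ≠ 1)
    (hc : τ₀ ζ = ζ ^ c) (x : JZero (M * p)) (hx : p • x = 0)
    (hxX : x ∈ m59st_X M p hp hpM A hA n) :
    τ₀ • x = c • x := by
  haveI : Fact p.Prime := ⟨hp⟩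
  have hp0 : p ≠ 0 := hp.ne_zero
  obtain ⟨-, has, hbs, hn1, hn0⟩ := hxX
  obtain ⟨c₁, -, hc₁A, h1⟩ := m59st_depth_of_near M p hp A hA n hn (AlgHom.id _ _) x hx hn1
  obtain ⟨c₀, -, hc₀A, h0⟩ :=
    m59st_depth_of_near M p hp A hA n hn (ssm_al_Wbar M p hp hpM) x hx hn0
  obtain ⟨π, hπA, hπ0, h⟩ := s44dq_core M p hpM A hA x hx has hbs hc₁A hc₀A h1 h0
  -- depth `p ^ 2`
  have hpp0 : ((p : Qb)) ^ 2 ≠ 0 := pow_ne_zero _ (by exact_mod_cast hp0)
  obtain ⟨n₁, hn₁⟩ := s44b_A_arch' A hp hA hpp0 hπA hπ0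
  have hd := h (max 1 n₁) (le_max_left _ _)
  have hn' := hn₁ (max 1 n₁) (le_max_right _ _)
  have d1 := s44b_depth2_mono' (M * p) A p hpp0 hn' _ hd.1
  have d0 := s44b_depth2_mono' (M * p) A p hpp0 hn' _ hd.2
  obtain ⟨f, hf⟩ := s44b_rep_exists (M * p) hx
  have e1 := s44b_depth2_any_rep (M * p) A hp0 (AlgHom.id _ _) d1 hf
  have e0 := s44b_depth2_any_rep (M * p) A hp0 (ssm_al_Wbar M p hp hpM) d0 hf
  have hord : ∀ v : Place Qb (modularFunctionFieldBar (M * p)), (p : ℤ) ∣ v.ord f := by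
    obtain ⟨-, D, -, hD⟩ := hf
    exact fun v => ⟨_, (hD v).symm⟩
  have hTor : s44t_TorBar M p hp hpM :=
    s44t_torBar_of_core M p hp hp2 hpM (s44t_coreNFP_of M p hp hp2 hpM (s44t_absCoreLeg M p))
  obtain ⟨c', r, hr, hcr⟩ := hTor A hA τ₀ hτ₀ ζ c hζ1 hζ2 hc f hf.1 hord e1 e0
  have hc'0 : c' ≠ 0 := by
    rintro rfl
    rw [map_zero, zero_mul, zero_mul] at hcr
    have : arithmeticGalois (modularFunctionFieldFull (M * p)) τ₀ • f ≠ 0 := by
      rw [Ne, smul_eq_zero_iff_eq]; exact hf.1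
    exact this hcr
  refine s44b_smul_eq_nsmul_of_kummer (M * p) hp0 τ₀ c hf ⟨c', r, hc'0, hr, ?_⟩
  rw [show arithmeticGalois (modularFunctionFieldFull (M * p)) τ₀ • f = ss_act (M * p) τ₀ f
    from rfl, hcr]
  ring

include hA in
/-- **(R3), finite level**: `(τ₀ - c) ^ n = 0` on the near `p`-new classes of level `p ^ n`, for
`τ₀ ∈ I` acting on `μ_p` through `ζ ↦ ζ ^ c`. -/
theorem m59st_nilp (hp2 : ¬ 2 ∣ p) (n : ℕ) (τ₀ : ↥(A.inertiaSubgroupIn ℚ)) (c : ℕ)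
    (hc : ∀ μ : Qb, μ ^ p = 1 → (τ₀ : Qb ≃ₐ[ℚ] Qb) μ = μ ^ c)
    {x : JZero (M * p)} (hx : x ∈ m59st_X M p hp hpM A hA n) :
    (⇑(s33a_A (G := JZero (M * p)) τ₀ (c : ℤ)))^[n] x = 0 := by
  rcases Nat.eq_zero_or_pos n with rfl | hn
  · have := hx.1
    rwa [pow_zero, one_smul] at this
  obtain ⟨ζ, hζ⟩ := HasEnoughRootsOfUnity.exists_primitiveRoot Qb p
  refine s33a_devissage (m59st_X M p hp hpM A hA n) (m59st_X_stable M p hp hpM A hA n) p τ₀
    (c : ℤ) ?_ n hx hx.1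
  intro y hy hpy
  rw [s33a_A_apply, Subgroup.smul_def, natCast_zsmul, sub_eq_zero]
  exact m59st_tors M p hp hpM A hA hp2 n hn τ₀.1 τ₀.2 c ζ hζ.pow_eq_one (hζ.ne_one hp.one_lt)
    (hc ζ hζ.pow_eq_one) y hpy hy

include hA in
/-- **(R1), finite level**: `(g - 1) z` is near for `g ∈ I`. -/
theorem m59st_aug_mem (n : ℕ) (g : Qb ≃ₐ[ℚ] Qb) (hg : g ∈ A.inertiaSubgroupIn ℚ)
    (z : JZero (M * p)) (hz : p ^ n • z = 0) (has : s35p_P1J M p z = 0)
    (hbs : s35p_P2J M p z = 0) : g • z - z ∈ m59st_X M p hp hpM A hA n := by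
  have hp0 : p ≠ 0 := hp.ne_zero
  have hnrm : ∀ f : modularFunctionFieldBar (M * p), f ≠ 0 → ∃ c : Qb, c ≠ 0 ∧
      algebraMap Qb (modularFunctionFieldBar (M * p)) c * f ∈ s44pg_W A hA hp0 (M * p) ∧
      (algebraMap Qb (modularFunctionFieldBar (M * p)) c * f)⁻¹ ∈ s44pg_W A hA hp0 (M * p) :=
    fun f hf => s44pg_nrm A hA hp0 (M * p) hf
  refine ⟨?_, ?_, ?_, ?_, ?_⟩
  · rw [nsmul_sub, ← s33g_gal_nsmul, hz, s33g_gal_zero, sub_zero]
  · rw [map_sub, s35p_P1J_smul, has, s33g_gal_zero, sub_zero]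
  · rw [map_sub, s35p_P2J_smul, hbs, s33g_gal_zero, sub_zero]
  · exact s33g_near_gen hnrm (arithmeticGalois (modularFunctionFieldFull (M * p)) g)
      (m59st_hinv M p hp A hA g hg) (fun _ => rfl) z hz
  · exact s33g_near_gen hnrm (arithmeticGalois (modularFunctionFieldFull (M * p)) g)
      (m59st_hinv M p hp A hA g hg) (fun f => s44pe_Wbar_smul M p hp hpM g f) z hz

end

end Fermat.Agent.M59
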