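/-
S59 project, cell [STRICT-p] (helper4; prefix `m59st_`): THE TORIC PART, TATE-MODULE LEVEL.

`N = M p`, `p ∤ M`, `p` odd, `A` a place of `ℚ̄` over `p`, `I` its inertia group.  On `T = T_p J₀(N)`:

* `m59st_Z M p`            : `Z = ker P₁ ∩ ker P₂` (the `p`-new part);
* `m59st_Y M p hp hpM A hA`: `Y ⊆ T`, the sequences all of whose components are NEAR `p`-new classes
                             (`m59st_X … n`);
* `m59st_F1` : `(g - 1) Z ⊆ Y` for `g ∈ I`                              [`m59st_aug_mem`];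
* `m59st_F2` : `(τ₀ - c₀) ^ n Y ⊆ p ^ n T` for `τ₀ ∈ I` acting on `μ_p` by `ζ ↦ ζ ^ c₀`  [`m59st_nilp`];
* `m59st_F3` : `(σ² - 1) Z ⊆ Y` for a Frobenius element `σ` at `A`, FROM the leaf
               `m59st_NearFrob_stmt`;
* `m59st_isUnit_one_sub` : `1 - c₀ ∈ ℤ_pˣ` when `c₀ ≢ 1 mod p`.

These are the hypotheses `hF1`, `hF2`, `hF3`, `hc'` of `m59st_abs` (`Strict/Abs.lean`).
-/
import Mathlib
import Fermat.Agent.M59.Strict.Near
import Fermat.Agent.M59.Strict.Seams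

set_option autoImplicit false
set_option linter.unusedSectionVars false
set_option linter.style.haveILetI false

noncomputable section

namespace Fermat.Agent.M59

open ModularCurve AlgebraicCurve Fermat.Agent.JT3 Fermat.Agent.SS Fermat.Agent.S35
  Fermat.Agent.S44 Fermat.Agent.S33 Fermat.Agent.S24

local notation "Qb" => AlgebraicClosure ℚ

section

variable (M p : ℕ) [NeZero M] [NeZero p] [Fact p.Prime]

/-- the `p`-new part of the Tate module of `J₀(M p)`. -/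
def m59st_Z : Submodule ℤ_[p] (tj_T (M * p) p) :=
  LinearMap.ker (s35p_P1 M p p) ⊓ LinearMap.ker (s35p_P2 M p p)

theorem m59st_mem_Z (z : tj_T (M * p) p) :
    z ∈ m59st_Z M p ↔ s35p_P1 M p p z = 0 ∧ s35p_P2 M p p z = 0 := by
  unfold m59st_Z
  rw [Submodule.mem_inf, LinearMap.mem_ker, LinearMap.mem_ker]

theorem m59st_Z_P1J {z : tj_T (M * p) p} (hz : z ∈ m59st_Z M p) (n : ℕ) :
    s35p_P1J M p (z.1 n) = 0 := by
  rw [← s35p_P1_apply, ((m59st_mem_Z M p z).1 hz).1]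
  rfl

theorem m59st_Z_P2J {z : tj_T (M * p) p} (hz : z ∈ m59st_Z M p) (n : ℕ) :
    s35p_P2J M p (z.1 n) = 0 := by
  rw [← s35p_P2_apply, ((m59st_mem_Z M p z).1 hz).2]
  rfl

theorem m59st_Z_stable (g : Qb ≃ₐ[ℚ] Qb) {z : tj_T (M * p) p} (hz : z ∈ m59st_Z M p) :
    tj_rho (M * p) p g z ∈ m59st_Z M p := by
  rw [m59st_mem_Z] at hz ⊢
  rw [s35p_P1_rho, s35p_P2_rho, hz.1, hz.2, map_zero]
  exact ⟨rfl, rfl⟩

variable (hp : p.Prime) (hpM : ¬ p ∣ M) (A : ValuationSubring Qb) (hA : A.LiesOverPrime p)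

/-- the NEAR `p`-new part of the Tate module of `J₀(M p)`. -/
def m59st_Y : Submodule ℤ_[p] (tj_T (M * p) p) where
  carrier := {x | ∀ n, x.1 n ∈ m59st_X M p hp hpM A hA n}
  zero_mem' := fun n => (m59st_X M p hp hpM A hA n).zero_mem
  add_mem' := fun {x y} hx hy n => (m59st_X M p hp hpM A hA n).add_mem (hx n) (hy n)
  smul_mem' := fun a x hx n => by
    rw [tm_smul_apply]
    exact (m59st_X M p hp hpM A hA n).nsmul_mem (hx n) _

theorem m59st_mem_Y (x : tj_T (M * p) p) :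
    x ∈ m59st_Y M p hp hpM A hA ↔ ∀ n, x.1 n ∈ m59st_X M p hp hpM A hA n := Iff.rfl

include hA in
/-- **(F1)**: `(g - 1) Z ⊆ Y` for `g` in the inertia group. -/
theorem m59st_F1 (g : Qb ≃ₐ[ℚ] Qb) (hg : g ∈ A.inertiaSubgroupIn ℚ) (z : tj_T (M * p) p)
    (hz : z ∈ m59st_Z M p) : tj_rho (M * p) p g z - z ∈ m59st_Y M p hp hpM A hA := by
  intro n
  show g • z.1 n - z.1 n ∈ m59st_X M p hp hpM A hA n
  exact m59st_aug_mem M p hp hpM A hA n g hg (z.1 n) (tm_tor z n) (m59st_Z_P1J M p hz n)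
    (m59st_Z_P2J M p hz n)

include hA in
/-- **(F3)**: `(σ² - 1) Z ⊆ Y` for a Frobenius element `σ` at `A`, from the leaf. -/
theorem m59st_F3 (hNF : m59st_NearFrob_stmt) (hp2 : p ≠ 2) (σ : Qb ≃ₐ[ℚ] Qb)
    (hσ : A.IsFrobeniusAt σ p) (z : tj_T (M * p) p) (hz : z ∈ m59st_Z M p) :
    tj_rho (M * p) p σ (tj_rho (M * p) p σ z) - z ∈ m59st_Y M p hp hpM A hA := by
  intro n
  show σ • σ • z.1 n - z.1 n ∈ m59st_X M p hp hpM A hA n
  have h1 := m59st_Z_P1J M p hz n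
  have h2 := m59st_Z_P2J M p hz n
  obtain ⟨ha, hb⟩ := hNF M p hp hp2 hpM A hA σ hσ n (z.1 n) (tm_tor z n) h1 h2
  refine ⟨?_, ?_, ?_, ha, hb⟩
  · rw [nsmul_sub, ← s33g_gal_nsmul, ← s33g_gal_nsmul, tm_tor z n, s33g_gal_zero, s33g_gal_zero,
      sub_zero]
  · rw [map_sub, s35p_P1J_smul, s35p_P1J_smul, h1, s33g_gal_zero, s33g_gal_zero, sub_zero]
  · rw [map_sub, s35p_P2J_smul, s35p_P2J_smul, h2, s33g_gal_zero, s33g_gal_zero, sub_zero]

/-- the components of `(τ - c) ^ k`. -/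
theorem m59st_pow_apply (τ₀ : ↥(A.inertiaSubgroupIn ℚ)) (c : ℕ) (k : ℕ) (y : tj_T (M * p) p)
    (m : ℕ) :
    (((tj_rho (M * p) p (τ₀ : Qb ≃ₐ[ℚ] Qb) - (c : ℤ_[p]) • (1 : Module.End ℤ_[p] (tj_T (M * p) p)))
      ^ k) y).1 m = (⇑(s33a_A (G := JZero (M * p)) τ₀ (c : ℤ)))^[k] (y.1 m) := by
  induction k generalizing y with
  | zero => rfl
  | succ k ih =>
    rw [pow_succ, Module.End.mul_apply, ih, Function.iterate_succ_apply]
    congr 1
    rw [LinearMap.sub_apply, LinearMap.smul_apply, Module.End.one_apply, tm_sub_apply,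
      tm_natCast_smul_apply, tj_rho_apply, s33a_A_apply, natCast_zsmul, Subgroup.smul_def]

include hA in
/-- **(F2)**: `(τ₀ - c₀) ^ n Y ⊆ p ^ n T`. -/
theorem m59st_F2 (hp2 : ¬ 2 ∣ p) (τ₀ : Qb ≃ₐ[ℚ] Qb) (hτ₀ : τ₀ ∈ A.inertiaSubgroupIn ℚ) (c : ℕ)
    (hc : ∀ μ : Qb, μ ^ p = 1 → τ₀ μ = μ ^ c) (y : tj_T (M * p) p)
    (hy : y ∈ m59st_Y M p hp hpM A hA) (n : ℕ) :
    ∃ t : tj_T (M * p) p,
      ((tj_rho (M * p) p τ₀ - (c : ℤ_[p]) • (1 : Module.End ℤ_[p] (tj_T (M * p) p))) ^ n) y =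
        (p : ℤ_[p]) ^ n • t := by
  refine tm_exists_eq_smul _ n ?_
  have h := m59st_pow_apply M p A ⟨τ₀, hτ₀⟩ c n y n
  rw [h]
  exact m59st_nilp M p hp hpM A hA hp2 n ⟨τ₀, hτ₀⟩ c hc (hy n)

end

/-- `1 - c₀` is a unit of `ℤ_p` when `c₀ ≢ 1 mod p`. -/
theorem m59st_isUnit_one_sub (p : ℕ) [Fact p.Prime] (c : ℕ)
    (hne : ¬ (c : ℤ) ≡ 1 [ZMOD (p : ℤ)]) : IsUnit (1 - (c : ℤ_[p])) := by
  have hp : p.Prime := Fact.out
  have hpT : (p : ℤ_[p]) ∈ IsLocalRing.maximalIdeal ℤ_[p] := by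
    rw [PadicInt.maximalIdeal_eq_span_p]
    exact Ideal.mem_span_singleton_self _
  have h1 := s33a_isUnit_sub_one (T := ℤ_[p]) p hp hpT (c : ℤ) fun hdvd =>
    hne (Int.modEq_iff_dvd.mpr hdvd).symm
  have h2 : (1 : ℤ_[p]) - (c : ℤ_[p]) = -((((c : ℕ) : ℤ) : ℤ_[p]) - 1) := by
    rw [Int.cast_natCast]; ring
  rw [h2]
  exact h1.neg

end Fermat.Agent.M59
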