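/-
S59 project, cell [STRICT-p] (helper4; prefix `m59st_`): THE WIRING.

**`m59st_strictForm_of : m59st_NearFrob_stmt → m59p_StrictForm_stmt`.**

`N = A p`, `p ∤ A`, `p` odd.  From the `p`-new eigenclass `ψ` a nonzero vector of
`W = eigenspace ⊓ ker P₁ ⊓ ker P₂ ⊆ K ⊗ T_p J₀(N)` (`twlg_tn_exists`); `W ⊆ K · (1 ⊗ Z)`, `Z = ker P₁ ∩ ker P₂`
(flatness); the exact Cayley–Hamilton identities on `W` (helper10's `m59p_ch_exact`); the ordinary
shape of the matrices of `ρ` (`m59p_IsUrEig`); `(τ₀, k₀)` from `s33s_tau0`; `det ρ = ε`; the three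
facts (F1), (F2), (F3) of `Strict/Tate.lean`; the abstract theorem `m59st_abs`.
-/
import Mathlib
import Fermat.Agent.M59.AtP.Seams
import Fermat.Agent.M59.AtP.EspCH
import Fermat.Agent.M59.Strict.Abs
import Fermat.Agent.M59.Strict.Flat
import Fermat.Agent.M59.Strict.Mat
import Fermat.Agent.M59.Strict.Tate
import Fermat.Agent.TW.LG.TateNew
import Fermat.Agent.TW.LG.GatewayDegCoprimeMain
import Fermat.Agent.S33.Top.Step1
import Fermat.Agent.FF.Car.Padic

set_option autoImplicit false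
set_option linter.unusedSectionVars false
set_option linter.unusedVariables false
set_option linter.style.haveILetI false
set_option synthInstance.maxHeartbeats 400000
set_option maxHeartbeats 1000000

noncomputable section

namespace Fermat.Agent.M59

open IsLocalRing TensorProduct Polynomial ModularCurve CuspForm Fermat.Agent.JT3 Fermat.Agent.S35
  Fermat.Agent.TW Fermat.Agent.LR Fermat.Agent.SS Fermat.Agent.S33 Fermat.Agent.FF

local notation "GQ" => (AlgebraicClosure ℚ ≃ₐ[ℚ] AlgebraicClosure ℚ)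
local notation "Qbar" => AlgebraicClosure ℚ

section wire

variable (A p : ℕ) [NeZero A] [NeZero p] [Fact p.Prime] (S : Finset ℕ)
  (O : Type) [CommRing O] [IsDomain O] [IsDiscreteValuationRing O]
  [IsAdicComplete (maximalIdeal O) O] [CharZero O] [Algebra ℤ_[p] O]
  (K : Type) [Field K] [Algebra O K] [IsFractionRing O K] [Algebra ℤ_[p] K]
  [IsScalarTower ℤ_[p] O K]

/-- the `p`-new `χ`-eigenspace of `K ⊗ T_p J₀(A p)`. -/
def m59st_W (a : ℕ → O) : Submodule K (K ⊗[ℤ_[p]] tj_T (A * p) p) :=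
  pk_eigenspace p (A * p) S (tjp_Tl (A * p) p S) O K a ⊓
    (LinearMap.ker ((s35p_P1 A p p).baseChange K) ⊓ LinearMap.ker ((s35p_P2 A p p).baseChange K))

theorem m59st_W_stable (hpS : p ∈ S) (a : ℕ → O) (g : GQ) :
    ∀ w ∈ m59st_W A p S O K a, pk_bc K (tj_rho (A * p) p) g w ∈ m59st_W A p S O K a := by
  intro w hw
  set D : pk_Tate p (A * p) S :=
    tjp_tate (A * p) p S hpS (tji_nodeE (A * p)) (tji_S18 (A * p)) with hD
  refine ⟨pk_eigenspace_stable p (A * p) S (tj_rho (A * p) p) (tjp_Tl (A * p) p S) O K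
      D.Tl_ρ a g hw.1, LinearMap.mem_ker.2 ?_, LinearMap.mem_ker.2 ?_⟩
  · rw [pk_bc_apply, ← LinearMap.comp_apply, ← LinearMap.baseChange_comp,
      s35p_P1_rho_comp, LinearMap.baseChange_comp, LinearMap.comp_apply,
      LinearMap.mem_ker.1 hw.2.1, map_zero]
  · rw [pk_bc_apply, ← LinearMap.comp_apply, ← LinearMap.baseChange_comp,
      s35p_P2_rho_comp, LinearMap.baseChange_comp, LinearMap.comp_apply,
      LinearMap.mem_ker.1 hw.2.2, map_zero]

/-- `W ⊆ K · (1 ⊗ Z)`. -/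
theorem m59st_W_le (a : ℕ → O) : m59st_W A p S O K a ≤ m59st_ext K (m59st_Z A p) := by
  have hinjO : Function.Injective (algebraMap ℤ_[p] O) := pk_padic_injective p (algebraMap ℤ_[p] O)
  have hinj : Function.Injective (algebraMap ℤ_[p] K) := by
    rw [IsScalarTower.algebraMap_eq ℤ_[p] O K]
    exact (IsFractionRing.injective O K).comp hinjO
  haveI : Module.Flat ℤ_[p] K := ffc_pa_flat (fun t ht => by
    rcases mul_eq_zero.1 ht with h | h
    · exfalso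
      have h1 : algebraMap ℤ_[p] K (p : ℤ_[p]) = 0 := by rw [map_natCast]; exact h
      have h2 := hinj (h1.trans (map_zero _).symm)
      exact (Fact.out : p.Prime).ne_zero (by exact_mod_cast h2)
    · exact h)
  intro w hw
  exact m59st_ker_inf_le K (s35p_P1 A p p) (s35p_P2 A p p) hw.2

/-- the Eichler–Shimura relation on `O ⊗ T_p J₀(N)` (as `m59p_frob_X`, without finiteness of `O` over
`ℤ_p`). -/
theorem m59st_frob_X (N : ℕ) [NeZero N] (hpS : p ∈ S) (ℓ : ℕ) (hℓ : pk_Good N S ℓ)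
    (B : ValuationSubring Qbar) (hB : B.LiesOverPrime ℓ) (φ : GQ) (hφ : B.IsFrobeniusAt φ ℓ) :
    pk_bc O (tj_rho N p) φ * pk_bc O (tj_rho N p) φ -
      (tjp_Tl N p S ℓ).baseChange O * pk_bc O (tj_rho N p) φ +
      (ℓ : O) • (1 : Module.End O (O ⊗[ℤ_[p]] tj_T N p)) = 0 := by
  have hℓp : ℓ ≠ p := fun h => hℓ.2.2 (h ▸ Finset.mem_coe.mpr hpS)
  have h1 := tj_frob N p (tji_nodeE N) (tji_S18 N) ℓ hℓ.1 hℓ.2.1 hℓp B hB φ hφ
  rw [← tjp_Tl_good N p S hℓ] at h1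
  have h2 := congrArg (LinearMap.baseChange O) h1
  rw [LinearMap.baseChange_add, LinearMap.baseChange_sub, LinearMap.baseChange_mul,
    LinearMap.baseChange_mul, LinearMap.baseChange_smul, LinearMap.baseChange_one,
    LinearMap.baseChange_zero] at h2
  have h3 : ((ℓ : ℤ_[p]) • (1 : Module.End O (O ⊗[ℤ_[p]] tj_T N p))) = (ℓ : O) • 1 := by
    rw [Nat.cast_smul_eq_nsmul, Nat.cast_smul_eq_nsmul]
  rw [h3] at h2
  exact h2

/-- cancelling a nonzero scalar in a quadratic relation. -/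
theorem m59st_smul_cancel {K V : Type*} [Field K] [AddCommGroup V] [Module K V] (f : V →ₗ[K] V)
    (s t d : K) (hs : s ≠ 0) (w : V)
    (h : f (f (s • w)) - t • f (s • w) + d • (s • w) = 0) : f (f w) - t • f w + d • w = 0 := by
  have h3 : s • (f (f w) - t • f w + d • w) = 0 := by
    rw [map_smul, map_smul] at h
    rw [smul_add, smul_sub, smul_comm s t, smul_comm s d]
    exact h
  rcases smul_eq_zero.1 h3 with h | h
  · exact absurd h hs
  · exact h

/-- **the exact Cayley–Hamilton identities on `W`.** -/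
theorem m59st_CH_W (hp : (p : O) ∈ maximalIdeal O) (hpS : p ∈ S)
    (hNS : ∀ ℓ : ℕ, ℓ.Prime → ℓ ∣ A * p → ℓ ∈ S)
    (ρ : GaloisRepAdic O) (χ : heckeAlgebra (A * p) 2 (↑S : Set ℕ) →+* O)
    (hcompat : twt_CompatAdic χ ρ) (a : ℕ → O)
    (ha : ∀ (ℓ : ℕ) (h : pk_Good (A * p) S ℓ), a ℓ = χ (heckeAlgebra.T h.1 h.2.1 h.2.2))
    (g : GQ) (w : K ⊗[ℤ_[p]] tj_T (A * p) p) (hw : w ∈ m59st_W A p S O K a) :
    pk_bc K (tj_rho (A * p) p) g (pk_bc K (tj_rho (A * p) p) g w) -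
      algebraMap O K (LinearMap.trace O ρ.V (ρ.ρ g)) • pk_bc K (tj_rho (A * p) p) g w +
      algebraMap O K (LinearMap.det (ρ.ρ g)) • w = 0 := by
  have hinjK : Function.Injective (algebraMap O K) := IsFractionRing.injective O K
  haveI hloc : IsLocalHom (algebraMap ℤ_[p] O) := pk_isLocalHom_padic p hp _
  have hcont : GaloisActionIsAdicContinuous O (pk_bc O (tj_rho (A * p) p)) :=
    pk_adicContinuous_bc (tj_rho (A * p) p) (tj_cont (A * p) p (tj_finite (A * p) p))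
  have hιinj := pk_iota_injective ℤ_[p] O K (tj_T (A * p) p) hinjK
  obtain ⟨s, m, hs, hm⟩ := pk_clear_denominators ℤ_[p] O K (tj_T (A * p) p) w
  have hs' : algebraMap O K s ≠ 0 := (map_ne_zero_iff _ hinjK).2 hs
  have hmW : pkb_iota ℤ_[p] O K (tj_T (A * p) p) m ∈ m59st_W A p S O K a := by
    rw [hm]
    exact Submodule.smul_mem _ _ hw
  have hme : ∀ (ℓ : ℕ) (hℓ : ℓ.Prime) (hℓN : ¬ ℓ ∣ A * p) (hℓS : ℓ ∉ (↑S : Set ℕ)),
      (tjp_Tl (A * p) p S ℓ).baseChange O m = χ (heckeAlgebra.T hℓ hℓN hℓS) • m := by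
    intro ℓ hℓ hℓN hℓS
    apply hιinj
    rw [pkb_iota_baseChange, hmW.1 ℓ ⟨hℓ, hℓN, hℓS⟩, ha ℓ ⟨hℓ, hℓN, hℓS⟩, map_smul,
      algebraMap_smul]
  have h1 := m59p_ch_exact hp hpS hNS ρ χ hcompat (X := O ⊗[ℤ_[p]] tj_T (A * p) p)
    (pk_bc O (tj_rho (A * p) p)) hcont (fun ℓ => (tjp_Tl (A * p) p S ℓ).baseChange O)
    (fun ℓ hℓ B hB φ hφ => m59st_frob_X p S O (A * p) hpS ℓ hℓ B hB φ hφ) m hme g
  have h2 := congrArg (pkb_iota ℤ_[p] O K (tj_T (A * p) p)) h1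
  rw [map_add, map_sub, map_smul, map_smul, map_zero, pk_bc_apply, pkb_iota_baseChange,
    pkb_iota_baseChange, hm, ← algebraMap_smul K (LinearMap.trace O ρ.V (ρ.ρ g)),
    ← algebraMap_smul K (LinearMap.det (ρ.ρ g))] at h2
  exact m59st_smul_cancel ((tj_rho (A * p) p g).baseChange K) _ _ _ hs' w h2

include K in
/-- **[STRICT-p] from the leaf**, with the fraction field `K` and the `ℤ_p`-structures as
parameters. -/
theorem m59st_wire_K (hNF : m59st_NearFrob_stmt) (hp2 : p ≠ 2) (hpA : ¬ p ∣ A)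
    (hpS : p ∈ S) (hAS : ∀ ℓ : ℕ, ℓ.Prime → ℓ ∣ A → ℓ ∈ S)
    (hp : (p : O) ∈ maximalIdeal O)
    (ρ : GaloisRepAdic O) (χ : heckeAlgebra (A * p) 2 (↑S : Set ℕ) →+* O)
    (habs : ρ.residual.IsAbsolutelyIrreducible) (hcompat : twt_CompatAdic χ ρ)
    (P : ValuationSubring Qbar) (hP : P.LiesOverPrime p) (σ : GQ) (hσ : P.IsFrobeniusAt σ p)
    (u : O) (hu : m59p_IsUrEig ρ P σ u)
    (ψ : gh_H (A * p) →+ O) (hψ0 : ψ ≠ 0)
    (hψe : ∀ (ℓ : ℕ) (hℓ : ℓ.Prime) (hℓN : ¬ ℓ ∣ A * p) (hℓS : ℓ ∉ (↑S : Set ℕ)),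
      ψ.comp (t2f_TH (A * p) ℓ).toAddMonoidHom = χ (heckeAlgebra.T hℓ hℓN hℓS) • ψ)
    (hψA : ψ.comp (lrh_At hpA) = 0) (hψB : ψ.comp (lrh_Bt hpA) = 0) : u ^ 2 = 1 := by
  classical
  have hpp : p.Prime := Fact.out
  have hinjO : Function.Injective (algebraMap ℤ_[p] O) := pk_padic_injective p (algebraMap ℤ_[p] O)
  have hinjK : Function.Injective (algebraMap O K) := IsFractionRing.injective O K
  have hinj : Function.Injective (algebraMap ℤ_[p] K) := by
    rw [IsScalarTower.algebraMap_eq ℤ_[p] O K]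
    exact hinjK.comp hinjO
  have hNS : ∀ ℓ : ℕ, ℓ.Prime → ℓ ∣ A * p → ℓ ∈ S := by
    intro ℓ hℓ hdvd
    rcases (Nat.Prime.dvd_mul hℓ).1 hdvd with h | h
    · exact hAS ℓ hℓ h
    · rw [(Nat.prime_dvd_prime_iff_eq hℓ hpp).1 h]
      exact hpS
  -- the eigenvalues and the class over `K`
  set a : ℕ → O := fun ℓ =>
    if h : pk_Good (A * p) S ℓ then χ (heckeAlgebra.T h.1 h.2.1 h.2.2) else 0 with ha
  have ha' : ∀ (ℓ : ℕ) (h : pk_Good (A * p) S ℓ), a ℓ = χ (heckeAlgebra.T h.1 h.2.1 h.2.2) :=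
    fun ℓ h => dif_pos h
  set c : gh_H (A * p) →+ K := (algebraMap O K : O →+ K).comp ψ with hc
  have hc0 : c ≠ 0 := by
    intro h0
    apply hψ0
    refine AddMonoidHom.ext fun h => hinjK ?_
    have h1 : c h = 0 := by rw [h0]; rfl
    rw [AddMonoidHom.zero_apply, map_zero]
    exact h1
  obtain ⟨v, hv0, hv, hv1, hv2⟩ := twlg_tn_exists A p p S K hinj (lrh_At hpA) (lrh_Bt hpA)
    (twlg_gq_lattice_alpha A p p hpA) (twlg_gq_lattice_beta A p p hpA)
    (fun ℓ => algebraMap O K (a ℓ)) c hc0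
    (fun ℓ hℓ h => by
      show algebraMap O K (ψ (t2f_TH (A * p) ℓ h)) = algebraMap O K (a ℓ) * algebraMap O K (ψ h)
      have h1 := DFunLike.congr_fun (hψe ℓ hℓ.1 hℓ.2.1 hℓ.2.2) h
      rw [← map_mul, ha' ℓ hℓ]
      exact congrArg _ h1)
    (fun h => by
      show algebraMap O K (ψ (lrh_At hpA h)) = 0
      have h1 := DFunLike.congr_fun hψA h
      rw [← map_zero (algebraMap O K)]
      exact congrArg _ h1)
    (fun h => by
      show algebraMap O K (ψ (lrh_Bt hpA h)) = 0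
      have h1 := DFunLike.congr_fun hψB h
      rw [← map_zero (algebraMap O K)]
      exact congrArg _ h1)
  have hvW : v ∈ m59st_W A p S O K a :=
    ⟨hv, LinearMap.mem_ker.2 hv1, LinearMap.mem_ker.2 hv2⟩
  have hW0 : m59st_W A p S O K a ≠ ⊥ := by
    intro h
    rw [h, Submodule.mem_bot] at hvW
    exact hv0 hvW
  -- the ordinary shape of `ρ`
  obtain ⟨L, ⟨b, hLb⟩, hD, hI, hσu⟩ := hu
  have hb0 : b 0 ∈ L := by
    rw [hLb]
    exact Submodule.mem_span_singleton_self _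
  have hm10 : m59st_rhoK ρ b K σ 1 0 = 0 :=
    m59st_rhoK_10 ρ b K σ (by rw [← hLb]; exact hD σ hσ.mem_decompositionSubgroup _ hb0)
  have hm11 : m59st_rhoK ρ b K σ 1 1 = algebraMap O K u :=
    m59st_rhoK_11 ρ b K σ u (by rw [← hLb]; exact hσu (b 1))
  have hmI : ∀ g ∈ P.inertiaSubgroupIn ℚ,
      m59st_rhoK ρ b K g 1 0 = 0 ∧ m59st_rhoK ρ b K g 1 1 = 1 := by
    intro g hg
    refine ⟨m59st_rhoK_10 ρ b K g ?_, ?_⟩
    · rw [← hLb]
      have h1 := L.add_mem (hI g hg (b 0)) hb0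
      rwa [sub_add_cancel] at h1
    · have h1 := m59st_rhoK_11 ρ b K g 1 (by rw [one_smul, ← hLb]; exact hI g hg (b 1))
      rw [h1, map_one]
  -- the element `τ₀`
  obtain ⟨τ, hτ, k₀, hk₀, hne⟩ := s33s_tau0 hp2 P hP
  have hdet : algebraMap O K (cya_eps p O hp τ) = m59st_rhoK ρ b K τ 0 0 := by
    rw [← twt_da_det hp hNS χ ρ hcompat τ, ← m59st_rhoK_det ρ b K τ, Matrix.det_fin_two,
      (hmI τ hτ).1, (hmI τ hτ).2, mul_one, mul_zero, sub_zero]
  have hc1 : 1 - m59st_rhoK ρ b K τ 0 0 ≠ 0 := by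
    rw [← hdet, ← map_one (algebraMap O K), ← map_sub]
    intro h0
    have h1 : (1 : O) - cya_eps p O hp τ = 0 := hinjK (h0.trans (map_zero _).symm)
    have h2 := cya_eps_spec p O hp 1 τ k₀ (fun μ hμ => hk₀ μ (by rwa [pow_one] at hμ))
    rw [pow_one, Ideal.mem_span_singleton] at h2
    obtain ⟨t, ht⟩ := h2
    have h3 : ((((k₀ : ℕ) : ℤ) : O)) - 1 ∈ maximalIdeal O := by
      have h4 : ((((k₀ : ℕ) : ℤ) : O)) - 1 = -((p : O) * t) := by
        rw [← ht, Int.cast_natCast]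
        linear_combination (-1 : O) * h1
      rw [h4]
      exact neg_mem (Ideal.mul_mem_right _ _ hp)
    exact (mem_maximalIdeal _).1 h3 (s33a_isUnit_sub_one p hpp hp (k₀ : ℤ) fun hdvd =>
      hne (Int.modEq_iff_dvd.mpr hdvd).symm)
  have hp2' : ¬ 2 ∣ p := fun h => hp2 ((Nat.prime_dvd_prime_iff_eq Nat.prime_two hpp).1 h).symm
  have key := m59st_abs (O := O) (K := K) hp (tj_rho (A * p) p) (m59st_Z A p)
    (m59st_Y A p hpp hpA P hP) (m59st_W A p S O K a) hW0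
    (fun g => m59st_W_stable A p S O K hpS a g) (m59st_W_le A p S O K a)
    (m59st_rhoK ρ b K) (m59st_rhoK_span ρ b K habs)
    (fun g w hw => by
      rw [m59st_rhoK_trace, m59st_rhoK_det]
      exact m59st_CH_W A p S O K hp hpS hNS ρ χ hcompat a ha' g w hw)
    (P.inertiaSubgroupIn ℚ) σ τ hτ hm10 (algebraMap O K u) hm11 hmI
    (m59st_rhoK ρ b K τ 0 0) rfl hc1 (k₀ : ℤ_[p]) (m59st_isUnit_one_sub p k₀ hne)
    (fun g hg z hz => m59st_F1 A p hpp hpA P hP g hg z hz)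
    (fun y hy n => m59st_F2 A p hpp hpA P hP hp2' τ hτ k₀ hk₀ y hy n)
    (fun z hz => m59st_F3 A p hpp hpA P hP hNF hp2 σ hσ z hz)
  apply hinjK
  rw [map_pow, map_one]
  exact key

end wire

/-- **[STRICT-p] REDUCED TO ITS ONLY LEAF**: the pointwise form `m59p_StrictForm_stmt` of helper10's
block [AtP] follows from `m59st_NearFrob_stmt`. -/
theorem m59st_strictForm_of (hNF : m59st_NearFrob_stmt) : m59p_StrictForm_stmt := by
  intro p _ hp2 A _ _ hpA S hpS hAS 𝒪 _ _ _ _ _ _ hp𝒪 ρ χ habs hcompat P hP σ hσ u hu ψ hψ0 hψe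
    hψA hψB
  haveI : NeZero p := ⟨(Fact.out : p.Prime).ne_zero⟩
  letI : Algebra ℤ_[p] 𝒪 := (cya_padicHom p 𝒪 hp𝒪).toAlgebra
  haveI : IsScalarTower ℤ_[p] 𝒪 (FractionRing 𝒪) := inferInstance
  exact m59st_wire_K A p S 𝒪 (FractionRing 𝒪) hNF hp2 hpA hpS hAS hp𝒪 ρ χ habs hcompat P hP σ hσ u
    hu ψ hψ0 hψe hψA hψB

end Fermat.Agent.M59
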