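/-
S59 project, cell [STRICT-p] CLOSED (helper4 wiring `m59st_strictForm_of` + helper10's leaf
`m59nf_nearFrob`).

**`m59st_strictForm : m59p_StrictForm_stmt`**, no `_stmt` hypothesis.
-/
import Mathlib
import Fermat.Agent.M59.Strict.Wire
import Fermat.Agent.M59.Strict.NFMain

set_option autoImplicit false

namespace Fermat.Agent.M59

/-- **[STRICT-p], pointwise form, unconditional**: `u² = 1` for the eigenvalue `u` of a Frobenius
element at `p` on an unramified quotient line of a `p`-new eigenclass of level `A p`. -/
theorem m59st_strictForm : m59p_StrictForm_stmt := m59st_strictForm_of m59nf_nearFrob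

end Fermat.Agent.M59
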