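/-
S59 project, cell [STRICT-p] (helper4; prefix `m59st_`): EXACT CAYLEY–HAMILTON BY DENSITY.

`ρ : GaloisRepAdic O` with one non-scalar element, `Λ` a finite free `O`-module with a continuous
action `ρΛ` of `G_ℚ`; if at the Frobenius elements outside `S ∋ p` both satisfy the SAME relation
`X² - t X + ℓ`, then `ρΛ(g)² - tr ρ(g) ρΛ(g) + det ρ(g) = 0` for EVERY `g`
(`m59st_exact_CH`).  [the closure lemma `gcl_good_cyclo` (main) on the PRODUCT `Λ × ρ.V` gives a common
`t` with constant term `ε(g)`; on `ρ.V`: helper29's `m59ga_tr_det_of_rel` / `m59ga_det_eq_eps`.]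

* `m59st_exists_nonscalar` : a residually absolutely irreducible `ρ` has a non-scalar element.
-/
import Mathlib
import Fermat.Agent.M59.G5.Away
import Fermat.Agent.JT3.Algebra.GoodClosureFinal
import Fermat.Agent.JT3.Unram.TraceRigid

set_option autoImplicit false
set_option linter.unusedSectionVars false
set_option linter.style.haveILetI false

open Polynomial IsLocalRing

noncomputable section

namespace Fermat.Agent.M59

open Fermat.Agent.JT3

local notation "GQ" => (AlgebraicClosure ℚ ≃ₐ[ℚ] AlgebraicClosure ℚ)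
local notation "Qbar" => AlgebraicClosure ℚ

section Prod

variable {O : Type} [CommRing O] [IsLocalRing O]
  {T₁ T₂ : Type} [AddCommGroup T₁] [Module O T₁] [AddCommGroup T₂] [Module O T₂]

/-- the product of two actions. -/
def m59st_prodRep (ρ₁ : GQ →* Module.End O T₁) (ρ₂ : GQ →* Module.End O T₂) :
    GQ →* Module.End O (T₁ × T₂) where
  toFun g := LinearMap.prodMap (ρ₁ g) (ρ₂ g)
  map_one' := by
    rw [map_one, map_one]
    exact LinearMap.prodMap_one
  map_mul' g h := by
    rw [map_mul, map_mul]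
    exact (LinearMap.prodMap_mul _ _ _ _).symm

theorem m59st_prodRep_apply (ρ₁ : GQ →* Module.End O T₁) (ρ₂ : GQ →* Module.End O T₂) (g : GQ)
    (x : T₁ × T₂) : m59st_prodRep ρ₁ ρ₂ g x = (ρ₁ g x.1, ρ₂ g x.2) := rfl

theorem m59st_prod_mem_smul (I : Ideal O) {a : T₁} {b : T₂}
    (ha : a ∈ I • (⊤ : Submodule O T₁)) (hb : b ∈ I • (⊤ : Submodule O T₂)) :
    ((a, b) : T₁ × T₂) ∈ I • (⊤ : Submodule O (T₁ × T₂)) := by
  have h1 : LinearMap.inl O T₁ T₂ a ∈ I • (⊤ : Submodule O (T₁ × T₂)) := by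
    have := Submodule.mem_map_of_mem (f := LinearMap.inl O T₁ T₂) ha
    rw [Submodule.map_smul''] at this
    exact Submodule.smul_mono le_rfl le_top this
  have h2 : LinearMap.inr O T₁ T₂ b ∈ I • (⊤ : Submodule O (T₁ × T₂)) := by
    have := Submodule.mem_map_of_mem (f := LinearMap.inr O T₁ T₂) hb
    rw [Submodule.map_smul''] at this
    exact Submodule.smul_mono le_rfl le_top this
  have h3 : ((a, b) : T₁ × T₂) = LinearMap.inl O T₁ T₂ a + LinearMap.inr O T₁ T₂ b := by
    simp
  rw [h3]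
  exact Submodule.add_mem _ h1 h2

theorem m59st_prodRep_continuous (ρ₁ : GQ →* Module.End O T₁) (ρ₂ : GQ →* Module.End O T₂)
    (h₁ : GaloisActionIsAdicContinuous O ρ₁) (h₂ : GaloisActionIsAdicContinuous O ρ₂) :
    GaloisActionIsAdicContinuous O (m59st_prodRep ρ₁ ρ₂) := by
  intro n
  obtain ⟨L₁, hL₁, k₁⟩ := h₁ n
  obtain ⟨L₂, hL₂, k₂⟩ := h₂ n
  haveI := hL₁
  haveI := hL₂
  refine ⟨L₁ ⊔ L₂, IntermediateField.finiteDimensional_sup L₁ L₂, fun σ hσ v => ?_⟩
  have e : m59st_prodRep ρ₁ ρ₂ σ v - v = (ρ₁ σ v.1 - v.1, ρ₂ σ v.2 - v.2) := by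
    rw [m59st_prodRep_apply]
    rfl
  rw [e]
  exact m59st_prod_mem_smul _
    (k₁ σ (fun x hx => hσ x ((le_sup_left : L₁ ≤ L₁ ⊔ L₂) hx)) v.1)
    (k₂ σ (fun x hx => hσ x ((le_sup_right : L₂ ≤ L₁ ⊔ L₂) hx)) v.2)

end Prod

section CH

variable (p : ℕ) [Fact p.Prime] {O : Type} [CommRing O] [IsDomain O] [IsLocalRing O]
  [IsNoetherianRing O] [IsAdicComplete (maximalIdeal O) O]

/-- **exact Cayley–Hamilton by density.** -/
theorem m59st_exact_CH (hp : (p : O) ∈ maximalIdeal O) (ρ : GaloisRepAdic O)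
    {Λ : Type} [AddCommGroup Λ] [Module O Λ] [Module.Free O Λ] [Module.Finite O Λ]
    (ρΛ : GQ →* Module.End O Λ) (hcont : GaloisActionIsAdicContinuous O ρΛ)
    (S : Finset ℕ) (hpS : p ∈ S)
    (hF : ∀ ℓ : ℕ, ℓ.Prime → ℓ ∉ S → ∀ P : ValuationSubring Qbar, P.LiesOverPrime ℓ →
      ∀ φ : GQ, P.IsFrobeniusAt φ ℓ → ∃ t : O,
        ρ.ρ φ * ρ.ρ φ - t • ρ.ρ φ + (ℓ : O) • (1 : Module.End O ρ.V) = 0 ∧
        ρΛ φ * ρΛ φ - t • ρΛ φ + (ℓ : O) • (1 : Module.End O Λ) = 0)
    (σ₀ : GQ) (hσ₀ : ∀ s : O, ρ.ρ σ₀ ≠ s • (1 : Module.End O ρ.V)) (g : GQ) :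
    ρΛ g * ρΛ g - LinearMap.trace O ρ.V (ρ.ρ g) • ρΛ g +
      LinearMap.det (ρ.ρ g) • (1 : Module.End O Λ) = 0 := by
  -- a common relation on the product
  obtain ⟨t, ht⟩ := gcl_good_cyclo p hp (m59st_prodRep ρΛ ρ.ρ)
    (m59st_prodRep_continuous ρΛ ρ.ρ hcont ρ.isAdicContinuous) S hpS
    (fun ℓ hℓ hℓS P hP φ hφ => by
      obtain ⟨t, h1, h2⟩ := hF ℓ hℓ hℓS P hP φ hφ
      refine ⟨t, ?_⟩
      ext x
      · have := LinearMap.congr_fun h2 x
        simpa [m59st_prodRep_apply] using this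
      · have := LinearMap.congr_fun h2 x
        simp [m59st_prodRep_apply]
      · have := LinearMap.congr_fun h1 x
        simp [m59st_prodRep_apply]
      · have := LinearMap.congr_fun h1 x
        simpa [m59st_prodRep_apply] using this) g
  have hΛ : ρΛ g * ρΛ g - t • ρΛ g + cya_eps p O hp g • (1 : Module.End O Λ) = 0 := by
    ext x
    have := congrArg Prod.fst (LinearMap.congr_fun ht (x, 0))
    simpa [m59st_prodRep_apply] using this
  have hV : ρ.ρ g * ρ.ρ g - t • ρ.ρ g + cya_eps p O hp g • (1 : Module.End O ρ.V) = 0 := by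
    ext x
    have := congrArg Prod.snd (LinearMap.congr_fun ht (0, x))
    simpa [m59st_prodRep_apply] using this
  -- the determinant
  have hdet : LinearMap.det (ρ.ρ g) = cya_eps p O hp g :=
    m59ga_det_eq_eps p hp ρ S (fun ℓ hℓ hℓS P hP φ hφ => by
      obtain ⟨t, h1, -⟩ := hF ℓ hℓ hℓS P hP φ hφ
      exact ⟨t, h1⟩) σ₀ hσ₀ g
  -- the trace
  have htr : LinearMap.trace O ρ.V (ρ.ρ g) = t := by
    by_cases hs : ∀ s : O, ρ.ρ g ≠ s • (1 : Module.End O ρ.V)
    · exact (m59ga_tr_det_of_rel ρ.finrank_eq (ρ.ρ g) hs t _ hV).1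
    · push Not at hs
      obtain ⟨s, hs⟩ := hs
      have hd : LinearMap.det (ρ.ρ g) = s ^ 2 := by
        rw [hs, LinearMap.det_smul, ρ.finrank_eq, map_one, mul_one]
      have htr : LinearMap.trace O ρ.V (ρ.ρ g) = 2 * s := by
        rw [hs, map_smul, LinearMap.trace_one, ρ.finrank_eq, smul_eq_mul]
        push_cast
        ring
      have hne : Nontrivial ρ.V := by
        apply Module.nontrivial_of_finrank_pos (R := O)
        rw [ρ.finrank_eq]
        norm_num
      obtain ⟨x, hx⟩ := exists_ne (0 : ρ.V)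
      have h1 := LinearMap.congr_fun hV x
      rw [hs] at h1
      simp only [LinearMap.add_apply, LinearMap.sub_apply, Module.End.mul_apply,
        LinearMap.smul_apply, Module.End.one_apply, LinearMap.zero_apply] at h1
      have h2 : (s * s - t * s + cya_eps p O hp g) • x = 0 := by
        rw [← h1]
        module
      have h3 : s * s - t * s + cya_eps p O hp g = 0 := by
        rcases smul_eq_zero.mp h2 with h | h
        · exact h
        · exact absurd h hx
      have hs0 : s ≠ 0 := by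
        rintro rfl
        have hu : IsUnit (cya_eps p O hp g) := cya_eps_isUnit p O hp g
        rw [← hdet, hd] at hu
        simp at hu
      rw [← hdet, hd] at h3
      have h4 : s * (2 * s - t) = 0 := by linear_combination h3
      rcases mul_eq_zero.mp h4 with h | h
      · exact absurd h hs0
      · rw [htr]
        exact sub_eq_zero.mp h
  rw [htr, hdet]
  exact hΛ

end CH

section Nonscalar

variable {O : Type} [CommRing O] [IsLocalRing O]

/-- a residually absolutely irreducible representation has a non-scalar element. -/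
theorem m59st_exists_nonscalar (ρ : GaloisRepAdic O)
    (habs : ρ.residual.IsAbsolutelyIrreducible) :
    ∃ σ₀ : GQ, ∀ s : O, ρ.ρ σ₀ ≠ s • (1 : Module.End O ρ.V) := by
  classical
  by_contra hcon
  push Not at hcon
  have hspan := ur_tr_span_eq_top ρ habs
  -- every endomorphism is scalar
  have hall : ∀ f : Module.End O ρ.V, ∃ s : O, f = s • (1 : Module.End O ρ.V) := by
    intro f
    have hf : f ∈ Submodule.span O (Set.range ρ.ρ) := hspan ▸ Submodule.mem_top
    induction hf using Submodule.span_induction with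
    | mem x hx =>
      obtain ⟨g, rfl⟩ := hx
      exact hcon g
    | zero => exact ⟨0, (zero_smul _ _).symm⟩
    | add x y _ _ hx hy =>
      obtain ⟨a, rfl⟩ := hx
      obtain ⟨b, rfl⟩ := hy
      exact ⟨a + b, (add_smul _ _ _).symm⟩
    | smul c x _ hx =>
      obtain ⟨a, rfl⟩ := hx
      exact ⟨c * a, (mul_smul _ _ _).symm⟩
  let b : Module.Basis (Fin 2) O ρ.V := Module.finBasisOfFinrankEq O ρ.V ρ.finrank_eq
  obtain ⟨s, hs⟩ := hall (b.constr O ![b 1, 0])
  have h0 := LinearMap.congr_fun hs (b 0)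
  have h1 := LinearMap.congr_fun hs (b 1)
  rw [Module.Basis.constr_basis, LinearMap.smul_apply, Module.End.one_apply] at h0 h1
  simp only [Matrix.cons_val_zero, Matrix.cons_val_one] at h0 h1
  -- `b 1 = s • b 0` contradicts linear independence
  have hli := b.linearIndependent
  have h2 : s = 0 := by
    have h3 : (0 : O) • b 0 = s • b 1 := by rw [zero_smul]; exact h1
    have := congrArg (fun v => b.repr v 1) h3
    simpa using this.symm
  rw [h2, zero_smul] at h0
  exact b.ne_zero 1 h0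

end Nonscalar

end Fermat.Agent.M59
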